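import Mathlib
import Fermat.Agent.S26.Defs
import Fermat.Agent.S26.T.Defs

/-!
# S26, package (G), upper half (G-UP, owner helper21): interface of the geometric leaves

`A` proper smooth integral of relative dimension `g` over `K`, `U ⊆ A` affine open,
`R = Γ(A, U)`, `F = K(A)`.  The abstract core (`H21_GUpAbs`) bounds `dim L(m D_U)` by `C m ^ g`
from a separating Noether normalisation `K[y₁..y_g] ⊆ R` and the following leaves.

* `Stmt_TPOLE` : a finite set `T` of nonzero functions such that for every point `z ∉ U` some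
  `t ∈ T` has `t ^ m * h ∈ 𝒪_{A,z}` for all `m` and all `h ∈ L(m D_U)`;
* `Stmt_LREG`  : `L(m D_U) ⊆ Γ(A, U)` (Hartogs on `U`);
* `Stmt_DIM`   : a Noether normalisation of `Γ(A, U)` has exactly `g` variables;
* `Stmt_GUP`   : the upper bound and the finiteness.
-/

set_option autoImplicit false

open CategoryTheory CategoryTheory.Limits AlgebraicGeometry NeronModelInfra GoodReductionJacobian

universe u

namespace Fermat.Agent.S26.G

/-- The constants as sections over an open `U`. -/
noncomputable def constSec {K : Type u} [Field K] {A : Scheme.{u}}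
    (f : A ⟶ Spec (CommRingCat.of K)) (U : A.Opens) : K →+* Γ(A, U) :=
  ((A.presheaf.map (homOfLE (le_top : U ≤ ⊤)).op).hom).comp
    ((f.appTop).hom.comp (Scheme.ΓSpecIso (CommRingCat.of K)).inv.hom)

/-- **TPOLE**: a finite set of denominators for the poles along `X ∖ U`. -/
def Stmt_TPOLE : Prop :=
  ∀ {X : Scheme.{u}} [IsIntegral X] [IsLocallyNoetherian X] [CompactSpace X], T.IsNor X →
    ∀ (U : X.Opens), Nonempty U →
    ∃ T : Finset X.functionField, (∀ t ∈ T, t ≠ 0) ∧
      ∀ z : X, z ∉ U → ∃ t ∈ T, ∀ (m : ℕ) (h : X.functionField), h ∈ LU U (m : ℤ) →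
        t ^ m * h ∈ Set.range (algebraMap (X.presheaf.stalk z) X.functionField)

/-- **LREG**: the elements of `L(m D_U)` are regular on the affine open `U`. -/
def Stmt_LREG : Prop :=
  ∀ {X : Scheme.{u}} [IsIntegral X] [IsLocallyNoetherian X], T.IsNor X →
    ∀ (U : X.Opens) [Nonempty U], IsAffineOpen U → ∀ (m : ℤ) (h : X.functionField),
      h ∈ LU U m → h ∈ Set.range (X.germToFunctionField U)

/-- **DIM**: a finite injective `K[y₁..y_s] → Γ(A, U)` has `s = g` variables. -/
def Stmt_DIM : Prop :=
  ∀ (K : Type u) [Field K] [IsAlgClosed K] {A : Scheme.{u}} (f : A ⟶ Spec (CommRingCat.of K))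
    (g : ℕ) [SmoothOfRelativeDimension g f] [IsIntegral A] (U : A.Opens), Nonempty U →
    IsAffineOpen U →
    letI : Algebra K Γ(A, U) := (constSec f U).toAlgebra
    ∀ (s : ℕ) (φ : MvPolynomial (Fin s) K →ₐ[K] Γ(A, U)), Function.Injective φ →
      φ.toRingHom.IsIntegral → s = g

/-- **GUP**: the upper bound `ell U m ≤ C m ^ g` and the finiteness of `L(m D_U)`. -/
def Stmt_GUP : Prop :=
  ∀ (K : Type u) [Field K] [IsAlgClosed K] {A : Scheme.{u}} (f : A ⟶ Spec (CommRingCat.of K))
    (L : RelativeGroupLaw K f) (_hc : L.IsCommutative) (_hA : AbelianSchemePropertyBundle K f)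
    (g : ℕ) [SmoothOfRelativeDimension g f] [IsIntegral A] [IsLocallyNoetherian A]
    (U : A.Opens), IsGoodOpen L U →
    letI : Algebra K A.functionField := (constHom f).toAlgebra
    ∃ C : ℕ, ∀ m : ℕ, 1 ≤ m →
      Module.Finite K (Submodule.span K (LU U (m : ℤ))) ∧ ell f U m ≤ C * m ^ g

end Fermat.Agent.S26.G
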