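import Mathlib
import Fermat.Agent.S26.G.Defs
import Fermat.Agent.S26.H39_Nor

/-!
# S26, package (G), leaf DIM (helper8)

`A` integral, smooth of relative dimension `g` over a field `K`.  Then `K(A)` has transcendence
degree `g` over `K`; in particular a Noether normalisation of `Γ(A, U)` has exactly `g` variables.

Route (no differentials): a standard smooth chart gives `K[X₁..X_g] → Γ(A, V)` étale
(`RingHom.IsStandardSmoothOfRelativeDimension.exists_etale_mvPolynomial`); étale is flat, hence
injective, and `K(A)` is formally unramified and essentially of finite type over `K(X)`, hence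
separable algebraic.
-/

set_option autoImplicit false
set_option linter.style.haveILetI false

open CategoryTheory CategoryTheory.Limits AlgebraicGeometry

universe u

namespace Fermat.Agent.S26.G.H8

section Core

/-- The fraction field of a domain `S` étale over a domain `P` is algebraic over `P`. -/
theorem isAlgebraic_of_etale (P S F : Type u) [CommRing P] [IsDomain P] [CommRing S] [IsDomain S]
    [Field F] [Algebra P S] [Algebra.Etale P S] [Algebra S F] [IsFractionRing S F] [Algebra P F]
    [IsScalarTower P S F] (hinj : Function.Injective (algebraMap P S)) :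
    Algebra.IsAlgebraic P F := by
  have hinjF : Function.Injective (algebraMap P F) := by
    rw [IsScalarTower.algebraMap_eq P S F]
    exact (IsFractionRing.injective S F).comp hinj
  letI : Algebra (FractionRing P) F := (IsFractionRing.lift hinjF).toAlgebra
  haveI : IsScalarTower P (FractionRing P) F :=
    IsScalarTower.of_algebraMap_eq (fun x => (IsFractionRing.lift_algebraMap hinjF x).symm)
  haveI : Algebra.FormallyUnramified S F :=
    Algebra.FormallyUnramified.of_isLocalization (nonZeroDivisors S)
  haveI : Algebra.FormallyUnramified P F := Algebra.FormallyUnramified.comp P S F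
  haveI : Algebra.FormallyUnramified (FractionRing P) F :=
    Algebra.FormallyUnramified.of_restrictScalars P (FractionRing P) F
  haveI : Algebra.EssFiniteType S F := Algebra.EssFiniteType.of_isLocalization F (nonZeroDivisors S)
  haveI : Algebra.EssFiniteType P F := Algebra.EssFiniteType.comp P S F
  haveI : Algebra.EssFiniteType (FractionRing P) F :=
    Algebra.EssFiniteType.of_comp P (FractionRing P) F
  haveI : Algebra.IsSeparable (FractionRing P) F :=
    Algebra.FormallyUnramified.isSeparable (FractionRing P) F
  haveI : Algebra.IsAlgebraic (FractionRing P) F := Algebra.IsSeparable.isAlgebraic _ _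
  haveI : Algebra.IsAlgebraic P (FractionRing P) :=
    IsLocalization.isAlgebraic (FractionRing P) (nonZeroDivisors P)
  exact Algebra.IsAlgebraic.trans P (FractionRing P) F

end Core

section Scheme


variable {K : Type u} [Field K] {A : Scheme.{u}} (f : A ⟶ Spec (CommRingCat.of K))

theorem germ_constSec [IsIntegral A] (U : A.Opens) [Nonempty U] (k : K) :
    (A.germToFunctionField U).hom (constSec f U k) = constHom f k := by
  unfold constSec constHom
  simp only [RingHom.comp_apply]
  exact TopCat.Presheaf.germ_res_apply A.presheaf (homOfLE (le_top : U ≤ ⊤)) _ _ _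

/-- the constants as sections of `Spec K` over an open -/
noncomputable def baseSec (K : Type u) [Field K] (U' : (Spec (CommRingCat.of K)).Opens) :
    K →+* Γ(Spec (CommRingCat.of K), U') :=
  (((Spec (CommRingCat.of K)).presheaf.map (homOfLE (le_top : U' ≤ ⊤)).op).hom).comp
    (Scheme.ΓSpecIso (CommRingCat.of K)).inv.hom

theorem baseSec_bijective (U' : (Spec (CommRingCat.of K)).Opens)
    (x : Spec (CommRingCat.of K)) (hx : x ∈ U') : Function.Bijective (baseSec K U') := by
  have hU : U' = ⊤ := by
    ext y
    simp only [TopologicalSpace.Opens.coe_top, Set.mem_univ, iff_true]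
    rw [Subsingleton.elim y x]
    exact hx
  subst hU
  unfold baseSec
  have h1 : Function.Bijective ((Scheme.ΓSpecIso (CommRingCat.of K)).inv.hom) :=
    (Scheme.ΓSpecIso (CommRingCat.of K)).symm.commRingCatIsoToRingEquiv.bijective
  have h2 : ((Spec (CommRingCat.of K)).presheaf.map
      (homOfLE (le_top : (⊤ : (Spec (CommRingCat.of K)).Opens) ≤ ⊤)).op) = 𝟙 _ := by
    rw [show (homOfLE (le_top : (⊤ : (Spec (CommRingCat.of K)).Opens) ≤ ⊤)) = 𝟙 _ from rfl]
    simp
  rw [h2]
  simpa using h1

theorem appLE_baseSec (U' : (Spec (CommRingCat.of K)).Opens) (V : A.Opens) (e : V ≤ f ⁻¹ᵁ U')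
    (k : K) : (f.appLE U' V e).hom (baseSec K U' k) = constSec f V k := by
  unfold baseSec constSec
  simp only [RingHom.comp_apply]
  rw [← CommRingCat.comp_apply, Scheme.Hom.map_appLE]
  rw [← CommRingCat.comp_apply]
  rfl


/-- The étale chart: `g` functions forming a transcendence basis of `K(A)` over `K`. -/
theorem exists_isTranscendenceBasis [IsIntegral A] (g : ℕ) [SmoothOfRelativeDimension g f] :
    letI : Algebra K A.functionField := (constHom f).toAlgebra
    ∃ y : Fin g → A.functionField, IsTranscendenceBasis K y := by
  letI : Algebra K A.functionField := (constHom f).toAlgebra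
  obtain ⟨x⟩ : Nonempty A := inferInstance
  obtain ⟨U', _, V, hV, hxV, e, hφ⟩ :=
    SmoothOfRelativeDimension.exists_isStandardSmoothOfRelativeDimension (n := g) (f := f) x
  obtain ⟨g₁, hg₁C, hg₁⟩ := hφ.exists_etale_mvPolynomial
  have hR₀ : IsField Γ(Spec (CommRingCat.of K), U') :=
    H39.isField_sections_spec K U' (f x) (e hxV)
  haveI : IsDomain Γ(Spec (CommRingCat.of K), U') := hR₀.isDomain
  haveI : Nonempty V := ⟨⟨x, hxV⟩⟩
  letI algPS : Algebra (MvPolynomial (Fin g) Γ(Spec (CommRingCat.of K), U')) Γ(A, V) :=
    g₁.toAlgebra
  haveI : Algebra.Etale (MvPolynomial (Fin g) Γ(Spec (CommRingCat.of K), U')) Γ(A, V) := hg₁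
  have hinj : Function.Injective
      (algebraMap (MvPolynomial (Fin g) Γ(Spec (CommRingCat.of K), U')) Γ(A, V)) :=
    H39.algebraMap_injective_of_flat _ _
  letI algPF : Algebra (MvPolynomial (Fin g) Γ(Spec (CommRingCat.of K), U')) A.functionField :=
    ((algebraMap Γ(A, V) A.functionField).comp
      (algebraMap (MvPolynomial (Fin g) Γ(Spec (CommRingCat.of K), U')) Γ(A, V))).toAlgebra
  haveI : IsScalarTower (MvPolynomial (Fin g) Γ(Spec (CommRingCat.of K), U')) Γ(A, V)
      A.functionField := IsScalarTower.of_algebraMap_eq (fun _ => rfl)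
  haveI : IsFractionRing Γ(A, V) A.functionField :=
    functionField_isFractionRing_of_isAffineOpen A V hV
  haveI halg : Algebra.IsAlgebraic (MvPolynomial (Fin g) Γ(Spec (CommRingCat.of K), U'))
      A.functionField := isAlgebraic_of_etale _ Γ(A, V) _ hinj
  letI algKR : Algebra K Γ(Spec (CommRingCat.of K), U') := (baseSec K U').toAlgebra
  haveI : IsScalarTower K (MvPolynomial (Fin g) Γ(Spec (CommRingCat.of K), U'))
      A.functionField := by
    refine IsScalarTower.of_algebraMap_eq (fun k => ?_)
    have h1 : algebraMap K (MvPolynomial (Fin g) Γ(Spec (CommRingCat.of K), U')) k =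
        MvPolynomial.C (baseSec K U' k) := rfl
    have h2 : g₁ (MvPolynomial.C (baseSec K U' k)) = (f.appLE U' V e).hom (baseSec K U' k) := by
      rw [← hg₁C]; rfl
    rw [h1]
    change constHom f k = (A.germToFunctionField V).hom (g₁ (MvPolynomial.C (baseSec K U' k)))
    rw [h2, appLE_baseSec, germ_constSec]
  haveI : FaithfulSMul (MvPolynomial (Fin g) Γ(Spec (CommRingCat.of K), U')) A.functionField := by
    rw [faithfulSMul_iff_algebraMap_injective]
    exact (IsFractionRing.injective Γ(A, V) A.functionField).comp hinj
  -- the variables form a transcendence basis of the polynomial ring over `K`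
  have hbij := baseSec_bijective U' (f x) (e hxV)
  let e₀ : K ≃ₐ[K] Γ(Spec (CommRingCat.of K), U') :=
    AlgEquiv.ofBijective (Algebra.ofId K _) hbij
  let e' := MvPolynomial.mapAlgEquiv (Fin g) e₀
  have hX : IsTranscendenceBasis K
      (MvPolynomial.X : Fin g → MvPolynomial (Fin g) Γ(Spec (CommRingCat.of K), U')) := by
    have h0 := IsTranscendenceBasis.mvPolynomial (Fin g) K
    have h1 := (e'.isTranscendenceBasis_iff
      (x := (MvPolynomial.X : Fin g → MvPolynomial (Fin g) K))).mpr h0
    have h2 : (⇑e' ∘ (MvPolynomial.X : Fin g → MvPolynomial (Fin g) K)) = MvPolynomial.X := by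
      funext i
      simp [e']
    rwa [h2] at h1
  exact ⟨_, hX.algebraMap_comp (A := A.functionField)⟩


/-- `trdeg_K K(A) = g`. -/
theorem trdeg_functionField [IsIntegral A] (g : ℕ) [SmoothOfRelativeDimension g f] :
    letI : Algebra K A.functionField := (constHom f).toAlgebra
    Algebra.trdeg K A.functionField = g := by
  letI : Algebra K A.functionField := (constHom f).toAlgebra
  obtain ⟨y, hy⟩ := exists_isTranscendenceBasis f g
  have h := hy.lift_cardinalMk_eq_trdeg
  simpa using h.symm

/-- A Noether normalisation of `Γ(A, U)` gives a transcendence basis of `K(A)`. -/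
theorem isTranscendenceBasis_of_nn [IsIntegral A] (U : A.Opens) [Nonempty U]
    (hU : IsAffineOpen U) :
    letI : Algebra K Γ(A, U) := (constSec f U).toAlgebra
    letI : Algebra K A.functionField := (constHom f).toAlgebra
    ∀ (s : ℕ) (φ : MvPolynomial (Fin s) K →ₐ[K] Γ(A, U)), Function.Injective φ →
      φ.toRingHom.IsIntegral →
      IsTranscendenceBasis K
        (fun i : Fin s => (A.germToFunctionField U).hom (φ (MvPolynomial.X i))) := by
  letI : Algebra K Γ(A, U) := (constSec f U).toAlgebra
  letI : Algebra K A.functionField := (constHom f).toAlgebra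
  intro s φ hinj hint
  letI algPS : Algebra (MvPolynomial (Fin s) K) Γ(A, U) := φ.toRingHom.toAlgebra
  letI algPF : Algebra (MvPolynomial (Fin s) K) A.functionField :=
    ((algebraMap Γ(A, U) A.functionField).comp φ.toRingHom).toAlgebra
  haveI : IsScalarTower (MvPolynomial (Fin s) K) Γ(A, U) A.functionField :=
    IsScalarTower.of_algebraMap_eq (fun _ => rfl)
  haveI : IsFractionRing Γ(A, U) A.functionField :=
    functionField_isFractionRing_of_isAffineOpen A U hU
  haveI : Algebra.IsIntegral (MvPolynomial (Fin s) K) Γ(A, U) := ⟨hint⟩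
  haveI : Algebra.IsAlgebraic (MvPolynomial (Fin s) K) Γ(A, U) := inferInstance
  haveI : Algebra.IsAlgebraic Γ(A, U) A.functionField :=
    IsLocalization.isAlgebraic A.functionField (nonZeroDivisors Γ(A, U))
  haveI halg : Algebra.IsAlgebraic (MvPolynomial (Fin s) K) A.functionField :=
    Algebra.IsAlgebraic.trans (MvPolynomial (Fin s) K) Γ(A, U) A.functionField
  haveI : IsScalarTower K (MvPolynomial (Fin s) K) A.functionField := by
    refine IsScalarTower.of_algebraMap_eq (fun k => ?_)
    change constHom f k = (A.germToFunctionField U).hom (φ (algebraMap K _ k))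
    rw [φ.commutes]
    exact (germ_constSec f U k).symm
  haveI : FaithfulSMul (MvPolynomial (Fin s) K) A.functionField := by
    rw [faithfulSMul_iff_algebraMap_injective]
    exact (IsFractionRing.injective Γ(A, U) A.functionField).comp hinj
  exact (IsTranscendenceBasis.mvPolynomial (Fin s) K).algebraMap_comp (A := A.functionField)

/-- **DIM**. -/
theorem stmt_DIM : Stmt_DIM.{u} := by
  intro K _ _ A f g _ _ U hne hU s φ hinj hint
  letI : Algebra K Γ(A, U) := (constSec f U).toAlgebra
  letI : Algebra K A.functionField := (constHom f).toAlgebra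
  obtain ⟨y, hy⟩ := exists_isTranscendenceBasis f g
  have h2 := isTranscendenceBasis_of_nn f U hU s φ hinj hint
  have h := h2.lift_cardinalMk_eq hy
  simpa using h


end Scheme


end Fermat.Agent.S26.G.H8
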