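/-
S26 (row 25), package (G), side leaf CENTRE (helper80):
on a proper integral `K`-scheme `A`, every valuation ring `W` of the function field `K(A)`
containing the constants has a centre `z : A`: the local ring `𝒪_{A,z}` lies in `W` and is dominated
by it.  From Mathlib's valuative criterion (existence part, `A → Spec K` universally closed).

Main results (`W : ValuationSubring A.functionField`, `hW : ∀ c : K, constHom f c ∈ W`):
* `exists_centre_hom` : `∃ z (φ : 𝒪_{A,z} →+* W)`, `φ` local, `algebraMap s = φ s` in `K(A)`;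
* `exists_centre`     : `∃ z`, `𝒪_{A,z} ⊆ W` and `𝔪_z ⊆ W.nonunits`;
* `exists_centre_sections` : moreover `Γ(A, U) ⊆ W` for every open `U ∋ z`;
* `stmt_CENTRE : Stmt_CENTRE` : the same for `AbelianSchemePropertyBundle K f`.
-/
import Fermat.Agent.S26.Defs

set_option autoImplicit false

open CategoryTheory CategoryTheory.Limits AlgebraicGeometry

universe u

namespace Fermat.Agent.S26.G.H80

variable {K : Type u} [Field K] {A : Scheme.{u}} (f : A ⟶ Spec (CommRingCat.of K))

/-- The generic point as a morphism `Spec K(A) ⟶ A`. -/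
noncomputable def genericHom (A : Scheme.{u}) [IsIntegral A] :
    Spec (CommRingCat.of A.functionField) ⟶ A :=
  A.fromSpecStalk (genericPoint A)

theorem fromSpecStalk_appTop_apply (X : Scheme.{u}) (x : X) (s : Γ(X, ⊤)) :
    (Scheme.ΓSpecIso (X.presheaf.stalk x)).hom ((X.fromSpecStalk x).appTop s) =
      X.presheaf.germ ⊤ x trivial s := by
  rw [Scheme.fromSpecStalk_appTop]
  have h1 : (Spec (X.presheaf.stalk x)).presheaf.map
      (homOfLE (le_top : (X.fromSpecStalk x) ⁻¹ᵁ ⊤ ≤ ⊤)).op = 𝟙 _ :=
    (Spec (X.presheaf.stalk x)).presheaf.map_id _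
  simp only [CommRingCat.hom_comp, RingHom.coe_comp, Function.comp_apply]
  erw [h1]
  simp

/-- `Spec K(A) ⟶ A ⟶ Spec K` is `Spec` of the constants. -/
theorem genericHom_comp [IsIntegral A] :
    genericHom A ≫ f = Spec.map (CommRingCat.ofHom (constHom f)) := by
  apply ext_of_isAffine
  rw [Scheme.Hom.comp_appTop]
  unfold genericHom
  rw [← cancel_mono (Scheme.ΓSpecIso _).hom, Scheme.ΓSpecIso_naturality]
  rw [← cancel_epi (Scheme.ΓSpecIso (CommRingCat.of K)).inv, Iso.inv_hom_id_assoc]
  ext c
  simp only [CommRingCat.hom_comp, RingHom.coe_comp, Function.comp_apply, CommRingCat.hom_ofHom]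
  exact fromSpecStalk_appTop_apply A (genericPoint A) _

/-- **CENTRE**, general form: for a universally closed `f : A ⟶ Spec K` with `A` integral, every
valuation subring `W` of `K(A)` containing the constants has a centre `z` on `A`: there is a local
ring homomorphism `φ : 𝒪_{A,z} → W` compatible with the inclusions into `K(A)`. -/
theorem exists_centre_hom [IsIntegral A] [UniversallyClosed f]
    (W : ValuationSubring A.functionField) (hW : ∀ c : K, constHom f c ∈ W) :
    ∃ (z : A) (φ : A.presheaf.stalk z →+* W), IsLocalHom φ ∧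
      ∀ s : A.presheaf.stalk z,
        algebraMap (A.presheaf.stalk z) A.functionField s = (φ s : A.functionField) := by
  classical
  let κ : K →+* W := (constHom f).codRestrict W.toSubring hW
  have hκ : (algebraMap W A.functionField).comp κ = constHom f := by
    ext c; rfl
  have hex : ValuativeCriterion.Existence f := by
    have h := ‹UniversallyClosed f›
    rw [UniversallyClosed.eq_valuativeCriterion] at h
    exact h.1
  let S : ValuativeCommSq f :=
    { R := W
      K := A.functionField
      i₁ := genericHom A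
      i₂ := Spec.map (CommRingCat.ofHom κ)
      commSq := ⟨by
        rw [genericHom_comp, ← Spec.map_comp, ← CommRingCat.ofHom_comp, hκ]⟩ }
  obtain ⟨⟨l, hl1, hl2⟩⟩ := (hex S).exists_lift
  have hl : Spec.map (Scheme.stalkClosedPointTo l) ≫
      A.fromSpecStalk (l (IsLocalRing.closedPoint W)) = l :=
    Scheme.Spec_stalkClosedPointTo_fromSpecStalk l
  have hspec : genericPoint A ⤳ l (IsLocalRing.closedPoint W) :=
    (genericPoint_spec A).specializes trivial
  have key : Scheme.stalkClosedPointTo l ≫ CommRingCat.ofHom (algebraMap W A.functionField) =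
      A.presheaf.stalkSpecializes hspec := by
    apply Spec.map_injective
    rw [← cancel_mono (A.fromSpecStalk (l (IsLocalRing.closedPoint W)))]
    rw [Spec.map_comp, Category.assoc, hl, Scheme.SpecMap_stalkSpecializes_fromSpecStalk]
    exact hl1
  refine ⟨l (IsLocalRing.closedPoint W), (Scheme.stalkClosedPointTo l).hom, ?_, fun s => ?_⟩
  · exact Scheme.isLocalHom_stalkClosedPointTo' l
  · have := congrArg (fun ψ => ψ.hom s) key
    exact this.symm

/-- **CENTRE**: `𝒪_{A,z} ⊆ W` and `𝔪_z ⊆ 𝔪_W`. -/
theorem exists_centre [IsIntegral A] [UniversallyClosed f]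
    (W : ValuationSubring A.functionField) (hW : ∀ c : K, constHom f c ∈ W) :
    ∃ z : A,
      (∀ s : A.presheaf.stalk z, algebraMap (A.presheaf.stalk z) A.functionField s ∈ W) ∧
      (∀ s : A.presheaf.stalk z, s ∈ IsLocalRing.maximalIdeal (A.presheaf.stalk z) →
        algebraMap (A.presheaf.stalk z) A.functionField s ∈ W.nonunits) := by
  obtain ⟨z, φ, hφ, h⟩ := exists_centre_hom f W hW
  refine ⟨z, fun s => ?_, fun s hs => ?_⟩
  · rw [h s]; exact (φ s).2
  · rw [h s, ValuationSubring.mem_nonunits_iff_exists_mem_maximalIdeal]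
    refine ⟨(φ s).2, ?_⟩
    rw [IsLocalRing.mem_maximalIdeal, mem_nonunits_iff] at hs ⊢
    exact fun hu => hs (hφ.map_nonunit s hu)

/-- **CENTRE**, with sections: the sections over any open containing the centre lie in `W`. -/
theorem exists_centre_sections [IsIntegral A] [UniversallyClosed f]
    (W : ValuationSubring A.functionField) (hW : ∀ c : K, constHom f c ∈ W) :
    ∃ z : A,
      (∀ s : A.presheaf.stalk z, algebraMap (A.presheaf.stalk z) A.functionField s ∈ W) ∧
      (∀ s : A.presheaf.stalk z, s ∈ IsLocalRing.maximalIdeal (A.presheaf.stalk z) →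
        algebraMap (A.presheaf.stalk z) A.functionField s ∈ W.nonunits) ∧
      (∀ (U : A.Opens) [Nonempty U], z ∈ U → ∀ y : Γ(A, U), A.germToFunctionField U y ∈ W) ∧
      (∀ (U : A.Opens) [Nonempty U] (y : Γ(A, U)) (hz : z ∈ U),
        A.presheaf.germ U z hz y ∈ IsLocalRing.maximalIdeal (A.presheaf.stalk z) →
          A.germToFunctionField U y ∈ W.nonunits) := by
  obtain ⟨z, h1, h2⟩ := exists_centre f W hW
  refine ⟨z, h1, h2, fun U _ hz y => ?_, fun U _ y hz hy => ?_⟩
  · rw [← Scheme.algebraMap_germ_eq_germToFunctionField A hz y]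
    exact h1 _
  · rw [← Scheme.algebraMap_germ_eq_germToFunctionField A hz y]
    exact h2 _ hy

/-- If a section `y` over an open `U` is not in `W`, the centre of `W` is not in `U`. -/
theorem exists_centre_not_mem [IsIntegral A] [UniversallyClosed f]
    (W : ValuationSubring A.functionField) (hW : ∀ c : K, constHom f c ∈ W)
    (U : A.Opens) [Nonempty U] (y : Γ(A, U)) (hy : A.germToFunctionField U y ∉ W) :
    ∃ z : A, z ∉ U ∧
      (∀ s : A.presheaf.stalk z, algebraMap (A.presheaf.stalk z) A.functionField s ∈ W) ∧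
      (∀ s : A.presheaf.stalk z, s ∈ IsLocalRing.maximalIdeal (A.presheaf.stalk z) →
        algebraMap (A.presheaf.stalk z) A.functionField s ∈ W.nonunits) := by
  obtain ⟨z, h1, h2, h3, -⟩ := exists_centre_sections f W hW
  exact ⟨z, fun hz => hy (h3 U hz y), h1, h2⟩

/-- The interface statement of the leaf CENTRE, in the setting of S26. -/
def Stmt_CENTRE : Prop :=
  ∀ (K : Type u) [Field K] {A : Scheme.{u}} (f : A ⟶ Spec (CommRingCat.of K))
    (_hA : GoodReductionJacobian.AbelianSchemePropertyBundle K f) [IsIntegral A]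
    (W : ValuationSubring A.functionField), (∀ c : K, constHom f c ∈ W) →
    ∃ z : A,
      (∀ s : A.presheaf.stalk z, algebraMap (A.presheaf.stalk z) A.functionField s ∈ W) ∧
      (∀ s : A.presheaf.stalk z, s ∈ IsLocalRing.maximalIdeal (A.presheaf.stalk z) →
        algebraMap (A.presheaf.stalk z) A.functionField s ∈ W.nonunits) ∧
      (∀ (U : A.Opens) [Nonempty U], z ∈ U → ∀ y : Γ(A, U), A.germToFunctionField U y ∈ W) ∧
      (∀ (U : A.Opens) [Nonempty U] (y : Γ(A, U)) (hz : z ∈ U),
        A.presheaf.germ U z hz y ∈ IsLocalRing.maximalIdeal (A.presheaf.stalk z) →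
          A.germToFunctionField U y ∈ W.nonunits)

theorem stmt_CENTRE : Stmt_CENTRE.{u} := by
  intro K _ A f hA _ W hW
  have : IsProper f := hA.proper
  exact exists_centre_sections f W hW

end Fermat.Agent.S26.G.H80
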