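import Mathlib.RingTheory.Ideal.KrullsHeightTheorem
import Mathlib.RingTheory.Ideal.AssociatedPrime.Basic
import Mathlib.RingTheory.IntegralClosure.IntegrallyClosed
import Mathlib.RingTheory.IntegralClosure.Algebra.Basic
import Mathlib.RingTheory.Localization.FractionRing

/-!
# S26, side leaf HARTOGS (helper90)

A noetherian integrally closed domain is the intersection of its localisations at the primes of
height one (inside its fraction field).

* `height_eq_one_of_colon` : in a noetherian integrally closed domain a prime of the form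
  `(b : c)`, `b ≠ 0`, `c ∉ (b)`, has height one;
* `height_eq_one_of_isAssociatedPrime` : the associated primes of `R ⧸ (b)`, `b ≠ 0`, have height
  one;
* `hartogs` : if `x ∈ Frac R` lies in `R_P` for every prime `P` of height one, then `x ∈ R`.

Mathlib only.
-/

set_option autoImplicit false

namespace Fermat.Agent.S26.G.H90

open Ideal

variable {R : Type*} [CommRing R] [IsDomain R] [IsNoetherianRing R] [IsIntegrallyClosed R]

/-- In a noetherian integrally closed domain a prime ideal of the form `(b : c)` with `b ≠ 0` and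
`c ∉ (b)` has height one. -/
theorem height_eq_one_of_colon (b c : R) (hb : b ≠ 0) (P : Ideal R) [hPp : P.IsPrime]
    (hP : ∀ r, r ∈ P ↔ b ∣ r * c) (hc : ¬ b ∣ c) : P.height = 1 := by
  classical
  have hbP : b ∈ P := (hP b).2 (Dvd.intro c rfl)
  have hc0 : c ≠ 0 := fun h => hc (h ▸ dvd_zero b)
  have hPbot : P ≠ ⊥ := fun h => hb ((Submodule.mem_bot R).1 (h ▸ hbP))
  have hne : P.height ≠ 0 := fun h => hPbot (Ideal.height_eq_zero_iff_eq_bot.1 h)
  -- either multiplication by `c / b` maps `P` into `P`, or not
  by_cases hcase : ∀ z ∈ P, ∀ w, z * c = b * w → w ∈ P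
  · -- `c / b` is integral, hence in `R`: contradiction
    exfalso
    let K := FractionRing R
    have hbK : algebraMap R K b ≠ 0 := by
      simpa using (map_ne_zero_iff (algebraMap R K) (IsFractionRing.injective R K)).2 hb
    let y : K := algebraMap R K c / algebraMap R K b
    let N : Submodule R K := Submodule.map (Algebra.linearMap R K) P
    have hN : N ≠ ⊥ := by
      intro h
      have hmem : algebraMap R K b ∈ N := ⟨b, hbP, rfl⟩
      rw [h, Submodule.mem_bot] at hmem
      exact hbK hmem
    have hNfg : N.FG := Submodule.FG.map _ (IsNoetherian.noetherian P)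
    have hstab : ∀ n ∈ N, y • n ∈ N := by
      rintro n ⟨z, hz, rfl⟩
      obtain ⟨w, hw⟩ := (hP z).1 hz
      refine ⟨w, hcase z hz w hw, ?_⟩
      simp only [Algebra.linearMap_apply, smul_eq_mul, y]
      rw [div_mul_eq_mul_div, eq_div_iff hbK, ← map_mul, ← map_mul, mul_comm w b, ← hw,
        mul_comm]
    have hint : IsIntegral R y := isIntegral_of_smul_mem_submodule N hN hNfg y hstab
    obtain ⟨r, hr⟩ := IsIntegrallyClosed.isIntegral_iff.1 hint
    apply hc
    refine ⟨r, ?_⟩
    apply IsFractionRing.injective R K
    rw [map_mul, hr]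
    simp only [y]
    rw [mul_div_cancel₀ _ hbK]
  · -- `P` is minimal over a principal ideal
    simp only [not_forall, exists_prop] at hcase
    obtain ⟨u, huP, s, hus, hsP⟩ := hcase
    have hmin : P ∈ (Ideal.span {u}).minimalPrimes := by
      refine ⟨⟨hPp, (Ideal.span_singleton_le_iff_mem P).2 huP⟩, ?_⟩
      rintro Q ⟨hQ, huQ⟩ hQP z hz
      obtain ⟨w, hw⟩ := (hP z).1 hz
      have hzs : z * s = u * w := by
        apply mul_right_cancel₀ hc0
        calc z * s * c = (z * c) * s := by ring
          _ = (b * w) * s := by rw [hw]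
          _ = (b * s) * w := by ring
          _ = (u * c) * w := by rw [hus]
          _ = u * w * c := by ring
      have huQ' : u ∈ Q := (Ideal.span_singleton_le_iff_mem Q).1 huQ
      have : z * s ∈ Q := hzs ▸ Q.mul_mem_right w huQ'
      rcases hQ.mem_or_mem this with h | h
      · exact h
      · exact absurd (hQP h) hsP
    have hle : P.height ≤ 1 :=
      Ideal.height_le_one_of_isPrincipal_of_mem_minimalPrimes (Ideal.span {u}) P hmin
    exact le_antisymm hle (Order.one_le_iff_ne_zero.2 hne)

/-- The associated primes of `R ⧸ (b)`, `b ≠ 0`, have height one (`R` a noetherian integrally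
closed domain). -/
theorem height_eq_one_of_isAssociatedPrime (b : R) (hb : b ≠ 0) (P : Ideal R)
    (hP : IsAssociatedPrime P (R ⧸ Ideal.span {b})) : P.height = 1 := by
  obtain ⟨hPp, y, hy⟩ := isAssociatedPrime_iff.1 hP
  obtain ⟨c, rfl⟩ := Ideal.Quotient.mk_surjective y
  have hmem : ∀ r, r ∈ P ↔ b ∣ r * c := by
    intro r
    rw [hy, Submodule.mem_colon_singleton, Submodule.mem_bot]
    have : (r • (Ideal.Quotient.mk (Ideal.span {b}) c) : R ⧸ Ideal.span {b}) =
        Ideal.Quotient.mk (Ideal.span {b}) (r * c) := by
      rw [Algebra.smul_def]; rfl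
    rw [this, Ideal.Quotient.eq_zero_iff_mem, Ideal.mem_span_singleton]
  have hc : ¬ b ∣ c := by
    intro h
    apply hPp.ne_top
    rw [Ideal.eq_top_iff_one, hmem, one_mul]
    exact h
  exact height_eq_one_of_colon b c hb P hmem hc

/-- **Hartogs** for a noetherian integrally closed domain `R` with fraction field `K`: an element
of `K` which lies in the localisation `R_P` for every prime `P` of height one lies in `R`. -/
theorem hartogs {K : Type*} [Field K] [Algebra R K] [IsFractionRing R K] (x : K)
    (h : ∀ P : Ideal R, P.IsPrime → P.height = 1 →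
      ∃ r s : R, s ∉ P ∧ x * algebraMap R K s = algebraMap R K r) :
    ∃ r : R, algebraMap R K r = x := by
  classical
  obtain ⟨a, b, hb, hab⟩ := IsFractionRing.div_surjective (A := R) x
  have hb0 : b ≠ 0 := nonZeroDivisors.ne_zero hb
  have hbK : algebraMap R K b ≠ 0 :=
    (map_ne_zero_iff (algebraMap R K) (IsFractionRing.injective R K)).2 hb0
  have hxb : x * algebraMap R K b = algebraMap R K a := by
    rw [← hab, div_mul_cancel₀ _ hbK]
  by_cases hdiv : b ∣ a
  · obtain ⟨r, rfl⟩ := hdiv
    refine ⟨r, ?_⟩
    rw [← hab, map_mul, mul_div_cancel_left₀ _ hbK]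
  · exfalso
    have hane : (Ideal.Quotient.mk (Ideal.span {b}) a) ≠ 0 := by
      rw [Ne, Ideal.Quotient.eq_zero_iff_mem, Ideal.mem_span_singleton]
      exact hdiv
    obtain ⟨P, hPass, hle⟩ := exists_le_isAssociatedPrime_of_isNoetherianRing R _ hane
    have hPp : P.IsPrime := hPass.isPrime
    have hht : P.height = 1 := height_eq_one_of_isAssociatedPrime b hb0 P hPass
    obtain ⟨r, s, hs, hrs⟩ := h P hPp hht
    apply hs
    apply hle
    rw [Submodule.mem_colon_singleton, Submodule.mem_bot]
    have hsa : s * a = b * r := by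
      apply IsFractionRing.injective R K
      rw [map_mul, map_mul, ← hxb, ← hrs]
      ring
    have : (s • (Ideal.Quotient.mk (Ideal.span {b}) a) : R ⧸ Ideal.span {b}) =
        Ideal.Quotient.mk (Ideal.span {b}) (s * a) := by
      rw [Algebra.smul_def]; rfl
    rw [this, Ideal.Quotient.eq_zero_iff_mem, Ideal.mem_span_singleton]
    exact ⟨r, hsa⟩

end Fermat.Agent.S26.G.H90
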