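import Mathlib

/-!
# S26, leaf G-UP (helper21), part 1: the degree valuation in one variable on `K[y]`

For a variable `j : σ` the map `p ↦ exp (degreeOf j p)` is a valuation on `MvPolynomial σ K`
(`K` a field); `degValFrac j` is its extension to the fraction field `E`, `degRing j` its
valuation subring (the local ring of "the hyperplane at infinity in the direction `j`").

* `degValFrac_algebraMap` : the value on a polynomial;
* `mem_degRing_iff` : `(X j)⁻¹ ^ N * p ∈ degRing j ↔ degreeOf j p ≤ N` for `p ≠ 0`;
* `exists_pow_div_mem` : for `a ≠ 0` in `E` some `(X j)⁻¹ ^ k / a` lies in `degRing j`.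
-/

set_option autoImplicit false

noncomputable section

open MvPolynomial WithZero

namespace Fermat.Agent.S26.G.H21

attribute [local instance] Classical.propDecidable

variable {K : Type*} [Field K] {σ : Type*}

/-- The degree valuation in the variable `j`: `p ↦ exp (degreeOf j p)`. -/
def degVal (j : σ) : Valuation (MvPolynomial σ K) ℤᵐ⁰ where
  toFun p := if p = 0 then 0 else WithZero.exp (degreeOf j p : ℤ)
  map_zero' := by simp
  map_one' := by simp
  map_mul' p q := by
    by_cases hp : p = 0
    · simp [hp]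
    by_cases hq : q = 0
    · simp [hq]
    simp only [mul_eq_zero, hp, hq, or_self, if_false]
    rw [degreeOf_mul_eq hp hq, Nat.cast_add, WithZero.exp_add]
  map_add_le_max' p q := by
    by_cases hpq : p + q = 0
    · simp [hpq]
    simp only [hpq, if_false]
    by_cases hp : p = 0
    · simp [hp] at hpq ⊢
      simp [hpq]
    by_cases hq : q = 0
    · simp [hq, hp]
    simp only [hp, hq, if_false, le_max_iff, WithZero.exp_le_exp, Nat.cast_le]
    have := degreeOf_add_le j p q
    rcases le_max_iff.mp this with h | h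
    · exact Or.inl h
    · exact Or.inr h

theorem degVal_apply (j : σ) {p : MvPolynomial σ K} (hp : p ≠ 0) :
    degVal j p = WithZero.exp (degreeOf j p : ℤ) := by
  simp [degVal, hp]

theorem degVal_ne_zero (j : σ) {p : MvPolynomial σ K} (hp : p ≠ 0) : degVal j p ≠ 0 := by
  rw [degVal_apply j hp]
  exact WithZero.exp_ne_zero

theorem degVal_supp_primeCompl (j : σ) :
    nonZeroDivisors (MvPolynomial σ K) ≤ (degVal (K := K) j).supp.primeCompl := by
  intro s hs
  rw [Ideal.primeCompl, Submonoid.mem_mk, Subsemigroup.mem_mk]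
  show s ∉ (degVal (K := K) j).supp
  rw [Valuation.mem_supp_iff]
  exact degVal_ne_zero j (nonZeroDivisors.ne_zero hs)

section Frac

variable (K) (E : Type*) [Field E] [Algebra (MvPolynomial σ K) E]
  [IsFractionRing (MvPolynomial σ K) E]

/-- The degree valuation in the variable `j` on the fraction field. -/
def degValFrac (j : σ) : Valuation E ℤᵐ⁰ :=
  (degVal (K := K) j).extendToLocalization (degVal_supp_primeCompl j) E

/-- The valuation ring of the degree valuation. -/
def degRing (j : σ) : ValuationSubring E := (degValFrac K E j).valuationSubring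

/-- The uniformiser `1 / y_j`. -/
def uu (E : Type*) [Field E] [Algebra (MvPolynomial σ K) E] (j : σ) : E :=
  (algebraMap (MvPolynomial σ K) E (X j))⁻¹

variable {K E}

theorem degValFrac_algebraMap (j : σ) (p : MvPolynomial σ K) :
    degValFrac K E j (algebraMap _ E p) = degVal j p :=
  Valuation.extendToLocalization_apply_map_apply _ _ _ _

theorem mem_degRing {j : σ} {x : E} :
    x ∈ degRing K E j ↔ degValFrac K E j x ≤ 1 :=
  Valuation.mem_valuationSubring_iff _ _

theorem degValFrac_X (j : σ) :
    degValFrac K E j (algebraMap (MvPolynomial σ K) E (X j)) = exp (1 : ℤ) := by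
  rw [degValFrac_algebraMap, degVal_apply j (X_ne_zero j), degreeOf_X_self]
  rfl

theorem degValFrac_uu (j : σ) : degValFrac K E j (uu K E j) = exp (-1 : ℤ) := by
  rw [uu, map_inv₀, degValFrac_X, ← WithZero.exp_neg]

theorem uu_ne_zero (j : σ) : uu K E j ≠ 0 := by
  intro h
  have := degValFrac_uu (K := K) (E := E) j
  rw [h, map_zero] at this
  exact WithZero.exp_ne_zero this.symm

theorem degValFrac_uu_pow (j : σ) (N : ℕ) :
    degValFrac K E j (uu K E j ^ N) = exp (-(N : ℤ)) := by
  rw [map_pow, degValFrac_uu, ← WithZero.exp_nsmul]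
  congr 1
  simp

theorem uu_mem (j : σ) : uu K E j ∈ degRing K E j := by
  rw [mem_degRing, degValFrac_uu, ← WithZero.exp_zero, WithZero.exp_le_exp]
  norm_num

/-- `y_j` does not lie in the degree ring. -/
theorem X_not_mem (j : σ) : algebraMap (MvPolynomial σ K) E (X j) ∉ degRing K E j := by
  rw [mem_degRing, degValFrac_X, ← WithZero.exp_zero, WithZero.exp_le_exp]
  norm_num

/-- The constants lie in the degree ring. -/
theorem C_mem (j : σ) (c : K) : algebraMap (MvPolynomial σ K) E (C c) ∈ degRing K E j := by
  rw [mem_degRing, degValFrac_algebraMap]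
  by_cases hc : c = 0
  · simp [hc]
  · have h0 : (C c : MvPolynomial σ K) ≠ 0 := by simpa using hc
    rw [degVal_apply j h0, degreeOf_C]
    simp

/-- **The degree lemma**: `(1 / y_j) ^ N * p` lies in the degree ring iff `deg_{y_j} p ≤ N`. -/
theorem uu_pow_mul_mem_iff (j : σ) (N : ℕ) {p : MvPolynomial σ K} (hp : p ≠ 0) :
    uu K E j ^ N * algebraMap _ E p ∈ degRing K E j ↔ degreeOf j p ≤ N := by
  rw [mem_degRing, map_mul, degValFrac_uu_pow, degValFrac_algebraMap, degVal_apply j hp,
    ← WithZero.exp_add, ← WithZero.exp_zero, WithZero.exp_le_exp]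
  omega

/-- Every nonzero value is a power of `exp 1`. -/
theorem exists_exp_eq {x : ℤᵐ⁰} (hx : x ≠ 0) : ∃ k : ℤ, x = exp k :=
  ⟨WithZero.log x, (WithZero.exp_log hx).symm⟩

/-- For `a ≠ 0` some `(1 / y_j) ^ k / a` lies in the degree ring. -/
theorem exists_pow_div_mem (j : σ) {a : E} (ha : a ≠ 0) :
    ∃ k : ℕ, ∀ n : ℕ, k ≤ n → uu K E j ^ n / a ∈ degRing K E j := by
  obtain ⟨m, hm⟩ := exists_exp_eq ((map_ne_zero (degValFrac K E j)).mpr ha)
  refine ⟨(-m).toNat, fun n hn => ?_⟩
  rw [mem_degRing, map_div₀, degValFrac_uu_pow, hm, ← WithZero.exp_sub, ← WithZero.exp_zero,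
    WithZero.exp_le_exp]
  have := Int.self_le_toNat (-m)
  omega

end Frac

end Fermat.Agent.S26.G.H21
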