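import Mathlib
import Fermat.Agent.S26.G.H21_DegVal

/-!
# S26, leaf G-UP (helper21), part 2: the abstract core of the upper bound

`P = K[y₁..y_g] ⊆ E = Frac P ⊆ F`, `F / E` finite separable.  Let `M m` be `K`-subspaces of `F`
of elements integral over `P`, and `T` a finite set of nonzero elements of `F` such that every
valuation subring `W ⊇ K` of `F` that does not contain all the `y_j` contains `t ^ m * h` for some
`t ∈ T` and all `h ∈ M m` ("the poles of `M m` along the divisor at infinity have order `≤ m`").
Then `dim_K M m ≤ C m ^ g` (`finrank_le_of_poles`).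

Proof: `V_j` the valuation ring of `deg_{y_j}` on `E`, `u_j = 1 / y_j`.  Some `u_j ^ k / t`,
`t ∈ T`, is integral over `V_j`; hence `u_j ^ (k m) h` lies in every valuation subring of `F`
over `V_j`, so it is integral over `V_j`.  For an `E`-basis `β_i` of `F`, integral over `P`, the
traces `Tr (h β_i)` are in `P` (integrally closed) and `u_j ^ (k m + c) Tr (h β_i) ∈ V_j`, i.e.
`deg_{y_j} Tr (h β_i) ≤ k m + c`.  The trace form is nondegenerate, so `h ↦ (Tr (h β_i))_i` is
injective into `e` copies of the polynomials of degree `≤ k m + c` in each variable.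
-/

set_option autoImplicit false

noncomputable section

open MvPolynomial

namespace Fermat.Agent.S26.G.H21

attribute [local instance] Classical.propDecidable

section General

variable {F : Type*} [Field F]

/-- Integral elements lie in every valuation subring containing the base. -/
theorem mem_valSub_of_isIntegral {A : Type*} [CommRing A] [Algebra A F] (W : ValuationSubring F)
    (hA : ∀ a : A, algebraMap A F a ∈ W) {x : F} (hx : IsIntegral A x) : x ∈ W := by
  have h1 : IsIntegral W x :=
    IsIntegral.map_of_comp_eq ((algebraMap A F).codRestrict W.toSubring hA) (RingHom.id F)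
      (by ext a; rfl) hx
  obtain ⟨y, hy⟩ := IsIntegrallyClosed.isIntegral_iff.mp h1
  rw [← hy]
  exact y.2

/-- An element lying in every valuation subring containing the base is integral. -/
theorem isIntegral_of_forall_mem_valSub {A : Type*} [CommRing A] [Algebra A F] {x : F}
    (h : ∀ W : ValuationSubring F, (∀ a : A, algebraMap A F a ∈ W) → x ∈ W) :
    IsIntegral A x := by
  by_contra hx
  have hx' : x ∉ (integralClosure A F).toSubring := hx
  obtain ⟨W, hW, hxW⟩ := Subring.exists_le_valuationSubring_of_isIntegrallyClosedIn hx'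
  exact hxW (h W fun a => hW (isIntegral_algebraMap))

end General

variable {K : Type*} [Field K] {g : ℕ}

/-- The dimension of the space of polynomials of degree `≤ N` in each variable. -/
theorem finrank_restrictDegree_le (N : ℕ) :
    Module.Finite K (restrictDegree (Fin g) K N) ∧
      Module.finrank K (restrictDegree (Fin g) K N) ≤ (N + 1) ^ g := by
  let s : Set (Fin g →₀ ℕ) := {n | ∀ i, n i ≤ N}
  let b : Module.Basis s K (restrictDegree (Fin g) K N) := basisRestrictSupport K s
  let ι : s → (Fin g → Fin (N + 1)) := fun n i => ⟨n.1 i, Nat.lt_succ_of_le (n.2 i)⟩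
  have hι : Function.Injective ι := by
    intro n n' h
    apply Subtype.ext
    ext i
    have := congrArg (fun f => (f i : ℕ)) h
    simpa [ι] using this
  have : Finite s := Finite.of_injective ι hι
  refine ⟨Module.Finite.of_basis b, ?_⟩
  rw [Module.finrank_eq_nat_card_basis b]
  calc Nat.card s ≤ Nat.card (Fin g → Fin (N + 1)) := Nat.card_le_card_of_injective ι hι
    _ = (N + 1) ^ g := by simp

variable {E : Type*} [Field E] [Algebra (MvPolynomial (Fin g) K) E]
  [IsFractionRing (MvPolynomial (Fin g) K) E]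

theorem X_mem_degRing_of_ne {i j : Fin g} (h : i ≠ j) :
    algebraMap (MvPolynomial (Fin g) K) E (X i) ∈ degRing K E j := by
  rw [mem_degRing, degValFrac_algebraMap, degVal_apply j (X_ne_zero i),
    degreeOf_X_of_ne (Ne.symm h)]
  simp

variable {F : Type*} [Field F] [Algebra E F]

/-- Every element of `F` becomes integral over the degree ring after multiplication by a power
of `1 / y_j`. -/
theorem exists_pow_mul_isIntegral [FiniteDimensional E F] (j : Fin g) (x : F) :
    ∃ k : ℕ, ∀ n : ℕ, k ≤ n →
      IsIntegral (degRing K E j) (algebraMap E F (uu K E j ^ n) * x) := by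
  obtain ⟨a, ha, hint⟩ := exists_integral_multiples (degRing K E j) E ({x} : Finset F)
  have hax : IsIntegral (degRing K E j) (algebraMap E F (a : E) * x) := by
    have := hint x (Finset.mem_singleton_self x)
    rwa [Algebra.smul_def] at this
  have ha' : (a : E) ≠ 0 := fun h => ha (Subtype.ext h)
  obtain ⟨k, hk⟩ := exists_pow_div_mem (K := K) (E := E) j ha'
  refine ⟨k, fun n hn => ?_⟩
  have h1 : algebraMap E F (uu K E j ^ n) * x =
      algebraMap (degRing K E j) F ⟨uu K E j ^ n / a, hk n hn⟩ * (algebraMap E F (a : E) * x) := by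
    have : algebraMap (degRing K E j) F ⟨uu K E j ^ n / a, hk n hn⟩ =
        algebraMap E F (uu K E j ^ n / a) := rfl
    rw [this, ← mul_assoc, ← map_mul, div_mul_cancel₀ _ ha']
  rw [h1]
  exact isIntegral_algebraMap.mul hax

variable [Algebra (MvPolynomial (Fin g) K) F] [IsScalarTower (MvPolynomial (Fin g) K) E F]

/-- A valuation subring of `F` over the degree ring `V_j` that contains `y_j` contains `P`. -/
theorem algebraMap_mem_of_X_mem (j : Fin g) (W : ValuationSubring F)
    (hV : ∀ v ∈ degRing K E j, algebraMap E F v ∈ W)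
    (hj : algebraMap (MvPolynomial (Fin g) K) F (X j) ∈ W) (p : MvPolynomial (Fin g) K) :
    algebraMap (MvPolynomial (Fin g) K) F p ∈ W := by
  induction p using MvPolynomial.induction_on with
  | C c =>
    rw [IsScalarTower.algebraMap_apply (MvPolynomial (Fin g) K) E F]
    exact hV _ (C_mem j c)
  | add p q hp hq =>
    rw [map_add]
    exact W.add_mem _ _ hp hq
  | mul_X p i hp =>
    rw [map_mul]
    refine W.mul_mem _ _ hp ?_
    by_cases hij : i = j
    · subst hij
      exact hj
    · rw [IsScalarTower.algebraMap_apply (MvPolynomial (Fin g) K) E F]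
      exact hV _ (X_mem_degRing_of_ne hij)

/-- The key step: poles of order `≤ m` along the divisor at infinity give integrality of
`u_j ^ (n m) h` over the degree ring `V_j`. -/
theorem exists_pow_mul_isIntegral_of_poles [FiniteDimensional E F] [Algebra K F]
    [IsScalarTower K (MvPolynomial (Fin g) K) F]
    (M : ℕ → Set F)
    (hint : ∀ m, ∀ h ∈ M m, IsIntegral (MvPolynomial (Fin g) K) h)
    (T : Finset F) (hT : ∀ t ∈ T, t ≠ 0)
    (hW : ∀ W : ValuationSubring F, (∀ c : K, algebraMap K F c ∈ W) →
      (∃ j, algebraMap (MvPolynomial (Fin g) K) F (X j) ∉ W) →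
      ∃ t ∈ T, ∀ m, ∀ h ∈ M m, t ^ m * h ∈ W)
    (j : Fin g) :
    ∃ k : ℕ, ∀ n : ℕ, k ≤ n → ∀ m, ∀ h ∈ M m,
      IsIntegral (degRing K E j) (algebraMap E F (uu K E j ^ (n * m)) * h) := by
  choose kt hkt using fun t : F => exists_pow_mul_isIntegral (K := K) (E := E) j t⁻¹
  refine ⟨T.sup kt, fun n hn m h hh => ?_⟩
  apply isIntegral_of_forall_mem_valSub
  intro W hVW
  have hV : ∀ v ∈ degRing K E j, algebraMap E F v ∈ W := fun v hv => hVW ⟨v, hv⟩
  have hu : algebraMap E F (uu K E j) ∈ W := hV _ (uu_mem j)
  by_cases hj : algebraMap (MvPolynomial (Fin g) K) F (X j) ∈ W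
  · -- all of `P` lies in `W`
    have hP := algebraMap_mem_of_X_mem j W hV hj
    have h1 : h ∈ W := mem_valSub_of_isIntegral W hP (hint m h hh)
    rw [map_pow]
    exact W.mul_mem _ _ (pow_mem hu _) h1
  · have hKW : ∀ c : K, algebraMap K F c ∈ W := by
      intro c
      rw [IsScalarTower.algebraMap_apply K (MvPolynomial (Fin g) K) F,
        IsScalarTower.algebraMap_apply (MvPolynomial (Fin g) K) E F]
      exact hV _ (C_mem j c)
    obtain ⟨t, ht, htW⟩ := hW W hKW ⟨j, hj⟩
    have ht0 := hT t ht
    have h1 : algebraMap E F (uu K E j ^ n) * t⁻¹ ∈ W :=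
      mem_valSub_of_isIntegral W hVW (hkt t _ ((Finset.le_sup ht).trans hn))
    have h2 := W.mul_mem _ _ (pow_mem h1 m) (htW m h hh)
    have h3 : (algebraMap E F (uu K E j ^ n) * t⁻¹) ^ m * (t ^ m * h) =
        algebraMap E F (uu K E j ^ (n * m)) * h := by
      rw [mul_pow, ← map_pow, ← pow_mul, inv_pow]
      field_simp
    rwa [h3] at h2

/-- The trace coordinates are polynomials of bounded degree. -/
theorem exists_trace_coord [FiniteDimensional E F] (N c : ℕ) (β h : F)
    (hβ : IsIntegral (MvPolynomial (Fin g) K) β) (hh : IsIntegral (MvPolynomial (Fin g) K) h)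
    (hβj : ∀ j : Fin g, IsIntegral (degRing K E j) (algebraMap E F (uu K E j ^ c) * β))
    (hhj : ∀ j : Fin g, IsIntegral (degRing K E j) (algebraMap E F (uu K E j ^ N) * h)) :
    ∃ p : MvPolynomial (Fin g) K, algebraMap (MvPolynomial (Fin g) K) E p =
      Algebra.trace E F (h * β) ∧ p ∈ restrictDegree (Fin g) K (N + c) := by
  have h1 : IsIntegral (MvPolynomial (Fin g) K) (Algebra.trace E F (h * β)) :=
    Algebra.isIntegral_trace (hh.mul hβ)
  obtain ⟨p, hp⟩ := IsIntegrallyClosed.isIntegral_iff.mp h1
  refine ⟨p, hp, ?_⟩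
  rw [mem_restrictDegree]
  intro s hs j
  by_cases hp0 : p = 0
  · simp [hp0] at hs
  refine degreeOf_le_iff.mp ?_ s hs
  rw [← uu_pow_mul_mem_iff (K := K) (E := E) j (N + c) hp0]
  have h2 : IsIntegral (degRing K E j)
      (Algebra.trace E F ((algebraMap E F (uu K E j ^ N) * h) *
        (algebraMap E F (uu K E j ^ c) * β))) :=
    Algebra.isIntegral_trace ((hhj j).mul (hβj j))
  obtain ⟨y, hy⟩ := IsIntegrallyClosed.isIntegral_iff.mp h2
  have h3 : (algebraMap E F (uu K E j ^ N) * h) * (algebraMap E F (uu K E j ^ c) * β) =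
      (uu K E j ^ (N + c)) • (h * β) := by
    rw [Algebra.smul_def, pow_add, map_mul]
    ring
  rw [h3, map_smul, smul_eq_mul, ← hp] at hy
  rw [← hy]
  exact y.2

/-- **G-UP, abstract core**: `dim_K M m ≤ C m ^ g`. -/
theorem finrank_le_of_poles [FiniteDimensional E F] [Algebra.IsSeparable E F] [Algebra K F]
    [IsScalarTower K (MvPolynomial (Fin g) K) F]
    (M : ℕ → Submodule K F)
    (hint : ∀ m, ∀ h ∈ M m, IsIntegral (MvPolynomial (Fin g) K) h)
    (T : Finset F) (hT : ∀ t ∈ T, t ≠ 0)
    (hW : ∀ W : ValuationSubring F, (∀ c : K, algebraMap K F c ∈ W) →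
      (∃ j, algebraMap (MvPolynomial (Fin g) K) F (X j) ∉ W) →
      ∃ t ∈ T, ∀ m, ∀ h ∈ M m, t ^ m * h ∈ W) :
    ∃ C : ℕ, ∀ m : ℕ, 1 ≤ m →
      Module.Finite K (M m) ∧ Module.finrank K (M m) ≤ C * m ^ g := by
  -- the `K`-structure of `E`
  let _ : Algebra K E :=
    ((algebraMap (MvPolynomial (Fin g) K) E).comp
      (algebraMap K (MvPolynomial (Fin g) K))).toAlgebra
  have : IsScalarTower K (MvPolynomial (Fin g) K) E := IsScalarTower.of_algebraMap_eq fun _ => rfl
  have : IsScalarTower K E F := IsScalarTower.of_algebraMap_eq fun c => by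
    rw [IsScalarTower.algebraMap_apply K (MvPolynomial (Fin g) K) F,
      IsScalarTower.algebraMap_apply (MvPolynomial (Fin g) K) E F]
    rfl
  -- an integral basis
  obtain ⟨s, b, hb⟩ := FiniteDimensional.exists_is_basis_integral (MvPolynomial (Fin g) K) E F
  -- the exponents
  choose k hk using fun j : Fin g =>
    exists_pow_mul_isIntegral_of_poles (K := K) (E := E) (fun m => (M m : Set F)) hint T hT hW j
  choose c hc using fun (ij : s × Fin g) =>
    exists_pow_mul_isIntegral (K := K) (E := E) ij.2 (b ij.1)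
  set k₀ := Finset.univ.sup k with hk₀
  set c₀ := Finset.univ.sup c with hc₀
  refine ⟨s.card * (k₀ + c₀ + 1) ^ g, fun m hm => ?_⟩
  set N := k₀ * m + c₀ with hN
  -- the target of the coordinates
  let ι : MvPolynomial (Fin g) K →ₗ[K] E :=
    (IsScalarTower.toAlgHom K (MvPolynomial (Fin g) K) E).toLinearMap
  let D : Submodule K E := (restrictDegree (Fin g) K N).map ι
  obtain ⟨hfinR, hrkR⟩ := finrank_restrictDegree_le (K := K) (g := g) N
  have : Module.Finite K D := Module.Finite.map _ _
  have hrkD : Module.finrank K D ≤ (N + 1) ^ g :=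
    (Submodule.finrank_map_le ι _).trans hrkR
  -- the coordinates
  let ψ : s → (M m →ₗ[K] E) := fun i =>
    ((Algebra.trace E F).restrictScalars K).comp
      ((LinearMap.mulRight K (b i)).comp (M m).subtype)
  have hψ : ∀ i (h : M m), ψ i h ∈ D := by
    intro i h
    obtain ⟨p, hp, hpN⟩ := exists_trace_coord (K := K) (E := E) (k₀ * m) c₀ (b i) (h : F) (hb i)
      (hint m h h.2) (fun j => hc (i, j) c₀ (Finset.le_sup (Finset.mem_univ (i, j))))
      (fun j => hk j k₀ (Finset.le_sup (Finset.mem_univ j)) m h h.2)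
    exact ⟨p, hpN, hp⟩
  let Ψ : M m →ₗ[K] (s → D) := LinearMap.pi fun i => (ψ i).codRestrict D (hψ i)
  have hΨ : Function.Injective Ψ := by
    rw [← LinearMap.ker_eq_bot, LinearMap.ker_eq_bot']
    intro h hh
    have h0 : ∀ i, Algebra.trace E F ((h : F) * b i) = 0 := by
      intro i
      have := congrArg (fun v => ((v i : D) : E)) hh
      simpa [Ψ, ψ] using this
    have h1 : (h : F) = 0 := by
      apply (traceForm_nondegenerate E F).1
      intro y
      have : Algebra.traceForm E F (h : F) = 0 := by
        apply b.ext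
        intro i
        simpa [Algebra.traceForm_apply] using h0 i
      rw [this]
      rfl
    exact Subtype.ext h1
  have hfin : Module.Finite K (M m) := Module.Finite.of_injective Ψ hΨ
  refine ⟨hfin, ?_⟩
  calc Module.finrank K (M m) ≤ Module.finrank K (s → D) :=
        LinearMap.finrank_le_finrank_of_injective hΨ
    _ = s.card * Module.finrank K D := by
        rw [Module.finrank_pi_fintype]
        simp
    _ ≤ s.card * (N + 1) ^ g := Nat.mul_le_mul_left _ hrkD
    _ ≤ s.card * ((k₀ + c₀ + 1) * m) ^ g := by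
        apply Nat.mul_le_mul_left
        apply Nat.pow_le_pow_left
        rw [hN]
        nlinarith
    _ = s.card * (k₀ + c₀ + 1) ^ g * m ^ g := by
        rw [mul_pow, mul_assoc]

end Fermat.Agent.S26.G.H21
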