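import Mathlib
import Fermat.Agent.S26.G.H21_GUpAbs

/-!
# S26, leaf G-UP (helper21), part 3: the upper bound from a separating Noether normalisation

`R` a domain over `K` with fraction field `F`, `y₁..y_g ∈ R` algebraically independent with `R`
finite over `K[y]` and `F` separable over `K(y)` (the output of `H38.exists_sepNN`).  Let `M m` be
`K`-subspaces of `F` contained in `R`, and `T` a finite set of nonzero elements of `F` such that
every valuation subring `W ⊇ K` of `F` with `R ⊄ W` contains `t ^ m * h` for some `t ∈ T` and all
`h ∈ M m`.  Then `dim_K M m ≤ C m ^ g` (`finrank_le_of_sepNN`).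
-/

set_option autoImplicit false

noncomputable section

open MvPolynomial

namespace Fermat.Agent.S26.G.H21

theorem finrank_le_of_sepNN {K R F : Type*} [Field K] [CommRing R] [IsDomain R] [Field F]
    [Algebra K R] [Algebra K F] [Algebra R F] [IsScalarTower K R F] [IsFractionRing R F] {g : ℕ}
    (y : Fin g → R) (hy : AlgebraicIndependent K y)
    (hint : ∀ r : R, IsIntegral (Algebra.adjoin K (Set.range y)) r)
    (hfin : Module.Finite (Algebra.adjoin K (Set.range y)) R)
    (hsep : Algebra.IsSeparable
      (IntermediateField.adjoin K (Set.range fun k => algebraMap R F (y k))) F)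
    (M : ℕ → Submodule K F) (hM : ∀ m, ∀ h ∈ M m, h ∈ Set.range (algebraMap R F))
    (T : Finset F) (hT : ∀ t ∈ T, t ≠ 0)
    (hW : ∀ W : ValuationSubring F, (∀ c : K, algebraMap K F c ∈ W) →
      (∃ r : R, algebraMap R F r ∉ W) → ∃ t ∈ T, ∀ m, ∀ h ∈ M m, t ^ m * h ∈ W) :
    ∃ C : ℕ, ∀ m : ℕ, 1 ≤ m →
      Module.Finite K (M m) ∧ Module.finrank K (M m) ≤ C * m ^ g := by
  classical
  -- the images of the `y` in `F`
  have hinj : Function.Injective (algebraMap R F) := IsFractionRing.injective R F
  have hy' : AlgebraicIndependent K (fun k => algebraMap R F (y k)) :=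
    hy.map' (f := IsScalarTower.toAlgHom K R F) hinj
  -- the instances
  let e := hy'.aevalEquivField
  let _ : Algebra (MvPolynomial (Fin g) K)
      (IntermediateField.adjoin K (Set.range fun k => algebraMap R F (y k))) :=
    (e.toRingEquiv.toRingHom.comp
      (algebraMap (MvPolynomial (Fin g) K) (FractionRing (MvPolynomial (Fin g) K)))).toAlgebra
  let e' : FractionRing (MvPolynomial (Fin g) K) ≃ₐ[MvPolynomial (Fin g) K]
      (IntermediateField.adjoin K (Set.range fun k => algebraMap R F (y k))) :=
    AlgEquiv.ofRingEquiv (f := e.toRingEquiv) fun _ => rfl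
  have : IsFractionRing (MvPolynomial (Fin g) K)
      (IntermediateField.adjoin K (Set.range fun k => algebraMap R F (y k))) :=
    IsLocalization.isLocalization_of_algEquiv _ e'
  let _ : Algebra (MvPolynomial (Fin g) K) F :=
    ((algebraMap (IntermediateField.adjoin K (Set.range fun k => algebraMap R F (y k))) F).comp
      (algebraMap (MvPolynomial (Fin g) K)
        (IntermediateField.adjoin K (Set.range fun k => algebraMap R F (y k))))).toAlgebra
  have : IsScalarTower (MvPolynomial (Fin g) K)
      (IntermediateField.adjoin K (Set.range fun k => algebraMap R F (y k))) F :=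
    IsScalarTower.of_algebraMap_eq fun _ => rfl
  -- the value of `P → F`
  have hPF : ∀ p : MvPolynomial (Fin g) K,
      algebraMap (MvPolynomial (Fin g) K) F p = aeval (fun k => algebraMap R F (y k)) p := by
    intro p
    exact hy'.aevalEquivField_algebraMap_apply_coe p
  have hPF' : ∀ p : MvPolynomial (Fin g) K,
      algebraMap (MvPolynomial (Fin g) K) F p = algebraMap R F (aeval y p) := by
    intro p
    rw [hPF]
    have := MvPolynomial.aeval_algebraMap_apply (R := K) (A := R) (B := F) y p
    exact this
  have : IsScalarTower K (MvPolynomial (Fin g) K) F := IsScalarTower.of_algebraMap_eq fun c => by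
    rw [hPF]
    simp
  let _ : Algebra (MvPolynomial (Fin g) K) R := (aeval y).toRingHom.toAlgebra
  have hPR : ∀ p : MvPolynomial (Fin g) K, algebraMap (MvPolynomial (Fin g) K) R p = aeval y p :=
    fun _ => rfl
  have : IsScalarTower (MvPolynomial (Fin g) K) R F := IsScalarTower.of_algebraMap_eq fun p => by
    rw [hPF', hPR]
  have hinjPR : Function.Injective (algebraMap (MvPolynomial (Fin g) K) R) :=
    algebraicIndependent_iff_injective_aeval.1 hy
  have : FaithfulSMul (MvPolynomial (Fin g) K) R := (faithfulSMul_iff_algebraMap_injective _ _).2 hinjPR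
  -- integrality and finiteness over `P`
  have hcomp : (algebraMap (MvPolynomial (Fin g) K) R).comp
      (hy.aevalEquiv.symm : Algebra.adjoin K (Set.range y) →+* MvPolynomial (Fin g) K) =
      (RingHom.id R).comp (algebraMap (Algebra.adjoin K (Set.range y)) R) := by
    ext s
    simp only [RingHom.coe_comp, Function.comp_apply, RingHom.id_apply]
    rw [hPR]
    exact hy.aeval_repr s
  have hintP : ∀ r : R, IsIntegral (MvPolynomial (Fin g) K) r := fun r =>
    IsIntegral.map_of_comp_eq
      (hy.aevalEquiv.symm : Algebra.adjoin K (Set.range y) →+* MvPolynomial (Fin g) K)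
      (RingHom.id R) hcomp (hint r)
  have : Algebra.IsIntegral (MvPolynomial (Fin g) K) R := ⟨hintP⟩
  have : Module.Finite (MvPolynomial (Fin g) K) R :=
    Module.Finite.of_equiv_equiv (A₁ := Algebra.adjoin K (Set.range y)) (B₁ := R)
      hy.aevalEquiv.symm.toRingEquiv (RingEquiv.refl R) (by
        ext s
        have := DFunLike.congr_fun hcomp s
        simpa using this)
  have : FiniteDimensional
      (IntermediateField.adjoin K (Set.range fun k => algebraMap R F (y k))) F :=
    Module.Finite.of_isLocalization (MvPolynomial (Fin g) K) R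
      (nonZeroDivisors (MvPolynomial (Fin g) K))
  -- apply the abstract core
  refine finrank_le_of_poles
    (E := IntermediateField.adjoin K (Set.range fun k => algebraMap R F (y k))) M ?_ T hT ?_
  · intro m h hh
    obtain ⟨r, rfl⟩ := hM m h hh
    exact (hintP r).algebraMap
  · intro W hKW ⟨j, hj⟩
    refine hW W hKW ⟨y j, ?_⟩
    rw [hPF'] at hj
    simpa using hj

end Fermat.Agent.S26.G.H21
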