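/-
helper38, S26 (row 25), side leaf SEP-NN of (G) (for helper21's G-UP): **separating Noether
normalisation** over a perfect infinite field (Mathlib only).

`exists_sepNN` : `K` perfect and infinite, `R` a `K`-algebra generated by finitely many elements,
`R ⊆ F` a field.  Then there are `y₁, …, y_s ∈ R`, algebraically independent over `K`, such that
`R` is integral (hence finite) over `K[y]` and the field `K(R)` is separable over `K(y)`.

Proof: induction on the number of generators `x₁, …, x_n`.  If they are algebraically dependent,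
take a relation `f` of minimal total degree; by perfectness some partial derivative `∂_i f` is
nonzero (Mathlib, `exists_mem_support_not_dvd_of_forall_totalDegree_le`), hence `∂_i f (x) ≠ 0`.
For a generic direction `c ∈ Kⁿ` (`c_i ≠ 0`, `f_d (c) ≠ 0`, `∑ c_j ∂_j f (x) ≠ 0`) put
`t = x_i / c_i`, `u_j = x_j - c_j t` (`u_i = 0`): `P (T) = f (u + c T)` has the unit leading
coefficient `f_d (c)`, `P (t) = 0`, `P' (t) ≠ 0`.
-/
import Mathlib

set_option autoImplicit false

open Polynomial

namespace Fermat.Agent.S26.G.H38

/-! ### The substitution `X_j ↦ u_j + c_j T` -/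

section Subst

variable {K A : Type*} [Field K] [CommRing A] [Algebra K A] {ι : Type*}

/-- The substitution `X_j ↦ u_j + c_j T`. -/
noncomputable def substLine (u : ι → A) (c : ι → K) : MvPolynomial ι K →ₐ[K] A[X] :=
  MvPolynomial.aeval fun j => C (u j) + C (algebraMap K A (c j)) * X

theorem substLine_X (u : ι → A) (c : ι → K) (j : ι) :
    substLine u c (MvPolynomial.X j) = C (u j) + C (algebraMap K A (c j)) * X := by
  unfold substLine
  rw [MvPolynomial.aeval_X]

theorem substLine_C (u : ι → A) (c : ι → K) (a : K) :
    substLine u c (MvPolynomial.C a) = C (algebraMap K A a) := by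
  unfold substLine
  rw [MvPolynomial.aeval_C]
  rfl

theorem natDegree_lin_le (a b : A) : (C a + C b * X : A[X]).natDegree ≤ 1 := by
  rw [add_comm]
  exact natDegree_linear_le

theorem coeff_lin_one (a b : A) : (C a + C b * X : A[X]).coeff 1 = b := by
  simp

theorem natDegree_lin_pow_le (a b : A) (k : ℕ) : ((C a + C b * X : A[X]) ^ k).natDegree ≤ k := by
  have h := natDegree_pow_le_of_le k (natDegree_lin_le a b)
  simpa using h

theorem coeff_lin_pow (a b : A) (k : ℕ) : ((C a + C b * X : A[X]) ^ k).coeff k = b ^ k := by
  have h := coeff_pow_of_natDegree_le (p := (C a + C b * X : A[X])) (m := k) (n := 1)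
    (natDegree_lin_le a b)
  rw [mul_one, coeff_lin_one] at h
  exact h

/-- Degree and top coefficient of a product. -/
theorem natDegree_coeff_prod {κ : Type*} (s : Finset κ) (g : κ → A[X]) (e : κ → ℕ)
    (h : ∀ j ∈ s, (g j).natDegree ≤ e j) :
    (∏ j ∈ s, g j).natDegree ≤ ∑ j ∈ s, e j ∧
      (∏ j ∈ s, g j).coeff (∑ j ∈ s, e j) = ∏ j ∈ s, (g j).coeff (e j) := by
  classical
  induction s using Finset.induction_on with
  | empty => simp
  | insert a s ha ih =>
    have h1 := ih fun j hj => h j (Finset.mem_insert_of_mem hj)
    have h2 := h a (Finset.mem_insert_self a s)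
    rw [Finset.prod_insert ha, Finset.sum_insert ha, Finset.prod_insert ha]
    refine ⟨natDegree_mul_le_of_le h2 h1.1, ?_⟩
    rw [coeff_mul_add_eq_of_natDegree_le h2 h1.1, h1.2]

/-- The image of a monomial: degree and top coefficient. -/
theorem substLine_monomial (u : ι → A) (c : ι → K) (σ : ι →₀ ℕ) (a : K) :
    (substLine u c (MvPolynomial.monomial σ a)).natDegree ≤ σ.degree ∧
      (substLine u c (MvPolynomial.monomial σ a)).coeff σ.degree
        = algebraMap K A (MvPolynomial.eval c (MvPolynomial.monomial σ a)) := by
  have h0 : substLine u c (MvPolynomial.monomial σ a)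
      = C (algebraMap K A a) *
        ∏ j ∈ σ.support, (C (u j) + C (algebraMap K A (c j)) * X : A[X]) ^ σ j := by
    unfold substLine
    rw [MvPolynomial.aeval_monomial]
    rfl
  have h1 := natDegree_coeff_prod σ.support
    (fun j => (C (u j) + C (algebraMap K A (c j)) * X : A[X]) ^ σ j) (fun j => σ j)
    (fun j _ => natDegree_lin_pow_le _ _ _)
  have hdeg : σ.degree = ∑ j ∈ σ.support, σ j := rfl
  rw [h0, hdeg]
  refine ⟨(natDegree_C_mul_le _ _).trans h1.1, ?_⟩
  rw [coeff_C_mul, h1.2, MvPolynomial.eval_monomial, map_mul, Finsupp.prod, map_prod]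
  congr 1
  refine Finset.prod_congr rfl fun j _ => ?_
  rw [coeff_lin_pow, map_pow]

/-- Degree of the image. -/
theorem natDegree_substLine_le (u : ι → A) (c : ι → K) (p : MvPolynomial ι K) :
    (substLine u c p).natDegree ≤ p.totalDegree := by
  rw [← MvPolynomial.support_sum_monomial_coeff p, map_sum]
  refine natDegree_sum_le_of_forall_le _ _ fun σ hσ => ?_
  rw [MvPolynomial.support_sum_monomial_coeff p]
  exact (substLine_monomial u c σ _).1.trans (MvPolynomial.le_totalDegree hσ)

/-- The coefficient of degree `d ≥ totalDegree p` of the image is the value of the homogeneous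
component of degree `d` at `c`. -/
theorem coeff_substLine (u : ι → A) (c : ι → K) (p : MvPolynomial ι K) (d : ℕ)
    (hd : p.totalDegree ≤ d) :
    (substLine u c p).coeff d
      = algebraMap K A (MvPolynomial.eval c (MvPolynomial.homogeneousComponent d p)) := by
  classical
  have hp : substLine u c p
      = ∑ σ ∈ p.support, substLine u c (MvPolynomial.monomial σ (MvPolynomial.coeff σ p)) := by
    conv_lhs => rw [← MvPolynomial.support_sum_monomial_coeff p]
    rw [map_sum]
  rw [hp, finsetSum_coeff, MvPolynomial.homogeneousComponent_apply, map_sum, map_sum,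
    Finset.sum_filter]
  refine Finset.sum_congr rfl fun σ hσ => ?_
  have h := substLine_monomial u c σ (MvPolynomial.coeff σ p)
  have hle : σ.degree ≤ d := (MvPolynomial.le_totalDegree hσ).trans hd
  split_ifs with hdd
  · rw [← hdd]
    exact h.2
  · exact coeff_eq_zero_of_natDegree_lt (h.1.trans_lt (lt_of_le_of_ne hle hdd))

/-- Evaluation of the image. -/
theorem aeval_substLine {B : Type*} [CommRing B] [Algebra K B] [Algebra A B] [IsScalarTower K A B]
    (u : ι → A) (c : ι → K) (t : B) (p : MvPolynomial ι K) :
    Polynomial.aeval t (substLine u c p)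
      = MvPolynomial.aeval (fun j => algebraMap A B (u j) + algebraMap K B (c j) * t) p := by
  have h : ((Polynomial.aeval t : A[X] →ₐ[A] B).restrictScalars K).comp (substLine u c)
      = MvPolynomial.aeval (fun j => algebraMap A B (u j) + algebraMap K B (c j) * t) := by
    refine MvPolynomial.algHom_ext fun j => ?_
    rw [AlgHom.comp_apply, substLine_X, MvPolynomial.aeval_X, AlgHom.restrictScalars_apply,
      map_add, map_mul, aeval_C, aeval_C, aeval_X, ← IsScalarTower.algebraMap_apply]
  exact DFunLike.congr_fun h p

/-- The chain rule. -/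
theorem derivative_substLine [Fintype ι] (u : ι → A) (c : ι → K) (p : MvPolynomial ι K) :
    derivative (substLine u c p)
      = ∑ j, C (algebraMap K A (c j)) * substLine u c (MvPolynomial.pderiv j p) := by
  classical
  induction p using MvPolynomial.induction_on with
  | C a =>
    rw [substLine_C, derivative_C]
    simp
  | add p q hp hq =>
    rw [map_add, map_add, hp, hq, ← Finset.sum_add_distrib]
    refine Finset.sum_congr rfl fun j _ => ?_
    rw [map_add, map_add, mul_add]
  | mul_X p k hp =>
    rw [map_mul, derivative_mul, hp, substLine_X]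
    have h1 : derivative (C (u k) + C (algebraMap K A (c k)) * X : A[X])
        = C (algebraMap K A (c k)) := by
      rw [derivative_add, derivative_C, zero_add, derivative_C_mul, derivative_X, mul_one]
    rw [h1]
    have h2 : ∀ j, C (algebraMap K A (c j)) *
        substLine u c (MvPolynomial.pderiv j (p * MvPolynomial.X k))
        = C (algebraMap K A (c j)) * substLine u c (MvPolynomial.pderiv j p) *
            (C (u k) + C (algebraMap K A (c k)) * X)
          + (if j = k then substLine u c p * C (algebraMap K A (c k)) else 0) := by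
      intro j
      rw [MvPolynomial.pderiv_mul, map_add, map_mul, map_mul, substLine_X, MvPolynomial.pderiv_X]
      by_cases hjk : j = k
      · subst hjk
        rw [Pi.single_eq_same, if_pos rfl, map_one]
        ring
      · rw [Pi.single_eq_of_ne (Ne.symm hjk), if_neg hjk, map_zero]
        ring
    rw [Finset.sum_congr rfl fun j _ => h2 j, Finset.sum_add_distrib, Finset.sum_mul,
      Finset.sum_ite_eq' Finset.univ k, if_pos (Finset.mem_univ k)]

end Subst

/-! ### Integral and separable elements from a polynomial -/

section Crit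

theorem isIntegral_of_unit_coeff {A B : Type*} [CommRing A] [CommRing B] [Algebra A B]
    (p : A[X]) (d : ℕ) (hdeg : p.natDegree ≤ d) (hu : IsUnit (p.coeff d)) (t : B)
    (ht : Polynomial.aeval t p = 0) : IsIntegral A t := by
  obtain ⟨v, hv⟩ := hu
  refine ⟨C (↑v⁻¹ : A) * p, ?_, ?_⟩
  · refine monic_of_natDegree_le_of_coeff_eq_one d ((natDegree_C_mul_le _ _).trans hdeg) ?_
    rw [coeff_C_mul, ← hv, Units.inv_mul]
  · rw [← Polynomial.aeval_def, map_mul, ht, mul_zero]

theorem isSeparable_of_simple_root {E F : Type*} [Field E] [Field F] [Algebra E F]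
    (p : E[X]) (t : F) (h0 : Polynomial.aeval t p = 0)
    (h1 : Polynomial.aeval t (derivative p) ≠ 0) : IsSeparable E t := by
  have hp0 : p ≠ 0 := by
    rintro rfl
    rw [derivative_zero, map_zero] at h1
    exact h1 rfl
  have hint : IsIntegral E t := IsAlgebraic.isIntegral ⟨p, hp0, h0⟩
  obtain ⟨q, hq⟩ := minpoly.dvd E t h0
  have h2 : Polynomial.aeval t (derivative (minpoly E t)) ≠ 0 := by
    intro h3
    apply h1
    rw [hq, derivative_mul, map_add, map_mul, map_mul, h3, minpoly.aeval, zero_mul, zero_mul,
      add_zero]
  have h4 : derivative (minpoly E t) ≠ 0 := by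
    intro h5
    rw [h5, map_zero] at h2
    exact h2 rfl
  exact (Polynomial.separable_iff_derivative_ne_zero (minpoly.irreducible hint)).2 h4

end Crit

/-! ### A generic direction -/

section Generic

variable {K F : Type*} [Field K] [Infinite K] [Field F] [Algebra K F] {ι : Type*} [Fintype ι]

theorem exists_generic (P : MvPolynomial ι K) (hP : P ≠ 0) (d : ι → F) (i : ι)
    (hd : d i ≠ 0) :
    ∃ c : ι → K, MvPolynomial.eval c P ≠ 0 ∧ ∑ j, algebraMap K F (c j) * d j ≠ 0 := by
  classical
  obtain ⟨c₀, hc₀⟩ : ∃ c₀ : ι → K, MvPolynomial.eval c₀ P ≠ 0 := by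
    by_contra h
    simp only [not_exists, not_not] at h
    exact hP (MvPolynomial.funext fun x => by rw [h x, map_zero])
  set e : ι → K := fun j => if j = i then 1 else 0 with he
  have hei : e i = 1 := if_pos rfl
  have hej : ∀ j, j ≠ i → e j = 0 := fun j hj => if_neg hj
  set q : K[X] := substLine (A := K) c₀ e P with hq
  have hev : ∀ t : K, q.eval t = MvPolynomial.eval (fun j => c₀ j + e j * t) P := by
    intro t
    have h := aeval_substLine (A := K) (B := K) c₀ e t P
    rw [Polynomial.coe_aeval_eq_eval] at h
    rw [hq, h]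
    rfl
  have hq0 : q ≠ 0 := by
    intro h0
    have h1 := hev 0
    rw [h0, eval_zero] at h1
    apply hc₀
    have h2 : (fun j => c₀ j + e j * 0) = c₀ := by
      funext j
      rw [mul_zero, add_zero]
    rw [h2] at h1
    exact h1.symm
  set ℓ₀ : F := ∑ j, algebraMap K F (c₀ j) * d j with hℓ₀
  have hfin1 : {t : K | q.IsRoot t}.Finite := Polynomial.finite_setOfPred_isRoot hq0
  have hfin2 : {t : K | ℓ₀ + algebraMap K F t * d i = 0}.Finite := by
    apply Set.Subsingleton.finite
    intro t ht t' ht'
    rw [Set.mem_ofPred_eq] at ht ht'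
    have h1 : algebraMap K F t * d i = algebraMap K F t' * d i := by
      rw [← add_right_inj ℓ₀, ht, ht']
    exact (algebraMap K F).injective (mul_right_cancel₀ hd h1)
  obtain ⟨t, ht⟩ := ((hfin1.union hfin2).infinite_compl).nonempty
  rw [Set.mem_compl_iff, Set.mem_union, not_or, Set.mem_ofPred_eq, Set.mem_ofPred_eq] at ht
  refine ⟨fun j => c₀ j + e j * t, ?_, ?_⟩
  · rw [← hev t]
    exact ht.1
  · intro h
    apply ht.2
    rw [← h, hℓ₀]
    have h1 : ∀ j, algebraMap K F (c₀ j + e j * t) * d j
        = algebraMap K F (c₀ j) * d j + (if j = i then algebraMap K F t * d i else 0) := by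
      intro j
      by_cases hji : j = i
      · rw [hji, hei, one_mul, if_pos rfl, map_add, add_mul]
      · rw [hej j hji, zero_mul, add_zero, if_neg hji, add_zero]
    rw [Finset.sum_congr rfl fun j _ => h1 j, Finset.sum_add_distrib,
      Finset.sum_ite_eq' Finset.univ i, if_pos (Finset.mem_univ i)]

end Generic

/-! ### The minimal relation -/

section Rel

variable {K : Type*} [Field K]

theorem pderiv_ne_zero_of_support {ι : Type*} (f : MvPolynomial ι K) (i : ι) (σ : ι →₀ ℕ)
    (hσ : σ ∈ f.support) (hi : ((σ i : ℕ) : K) ≠ 0) : MvPolynomial.pderiv i f ≠ 0 := by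
  classical
  intro h0
  have hσi : σ i ≠ 0 := by
    intro h
    rw [h, Nat.cast_zero] at hi
    exact hi rfl
  have h1 := MvPolynomial.coeff_pderiv (i := i) f (σ - Finsupp.single i 1)
  have h2 : σ - Finsupp.single i 1 + Finsupp.single i 1 = σ := by
    ext j
    by_cases hj : j = i
    · subst hj
      simp only [Finsupp.coe_add, Finsupp.coe_tsub, Pi.add_apply, Pi.sub_apply,
        Finsupp.single_eq_same]
      omega
    · simp only [Finsupp.coe_add, Finsupp.coe_tsub, Pi.add_apply, Pi.sub_apply]
      rw [Finsupp.single_eq_of_ne hj]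
      omega
  have h4 : (σ - Finsupp.single i 1 : ι →₀ ℕ) i + 1 = σ i := by
    simp only [Finsupp.coe_tsub, Pi.sub_apply, Finsupp.single_eq_same]
    omega
  have h3 : (Nat.cast ((σ - Finsupp.single i 1 : ι →₀ ℕ) i) : K) + 1 = (Nat.cast (σ i) : K) := by
    rw [← h4, Nat.cast_add, Nat.cast_one]
  rw [h0, MvPolynomial.coeff_zero, h2, h3] at h1
  exact mul_ne_zero (MvPolynomial.mem_support_iff.1 hσ) hi h1.symm

theorem totalDegree_pderiv_lt {ι : Type*} (f : MvPolynomial ι K) (i : ι)
    (h : MvPolynomial.pderiv i f ≠ 0) :
    (MvPolynomial.pderiv i f).totalDegree < f.totalDegree := by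
  classical
  obtain ⟨τ, hτ, hτd⟩ := Finset.exists_mem_eq_sup _ (MvPolynomial.support_nonempty.2 h)
    (fun s : ι →₀ ℕ => s.sum fun _ e => e)
  have h1 := MvPolynomial.mem_support_iff.1 hτ
  rw [MvPolynomial.coeff_pderiv] at h1
  have h2 : τ + Finsupp.single i 1 ∈ f.support :=
    MvPolynomial.mem_support_iff.2 (left_ne_zero_of_mul h1)
  have h3 := MvPolynomial.le_totalDegree h2
  have h4 : ((τ + Finsupp.single i 1).sum fun _ e => e) = (τ.sum fun _ e => e) + 1 := by
    show Finsupp.degree (τ + Finsupp.single i 1) = Finsupp.degree τ + 1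
    rw [map_add, Finsupp.degree_single]
  have h5 : (MvPolynomial.pderiv i f).totalDegree = τ.sum fun _ e => e := hτd
  omega

theorem homogeneousComponent_totalDegree_ne_zero {ι : Type*} (f : MvPolynomial ι K)
    (hf : f ≠ 0) : MvPolynomial.homogeneousComponent f.totalDegree f ≠ 0 := by
  classical
  obtain ⟨τ, hτ, hτd⟩ := Finset.exists_mem_eq_sup _ (MvPolynomial.support_nonempty.2 hf)
    (fun s : ι →₀ ℕ => s.sum fun _ e => e)
  have h5 : f.totalDegree = τ.sum fun _ e => e := hτd
  intro h0
  have h1 := MvPolynomial.coeff_homogeneousComponent f.totalDegree f τ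
  rw [h0, MvPolynomial.coeff_zero,
    if_pos (show Finsupp.degree τ = f.totalDegree from h5.symm)] at h1
  exact MvPolynomial.mem_support_iff.1 hτ h1.symm

variable [PerfectField K]
variable {R : Type*} [CommRing R] [Algebra K R]
variable {F : Type*} [Field F] [Algebra K F] [Algebra R F] [IsScalarTower K R F]

theorem exists_support_cast_ne_zero (hinj : Function.Injective (algebraMap R F)) {ι : Type*}
    (x : ι → R) (f : MvPolynomial ι K) (hf0 : f ≠ 0) (hfx : MvPolynomial.aeval x f = 0)
    (hmin : ∀ g : MvPolynomial ι K, g ≠ 0 → MvPolynomial.aeval x g = 0 →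
      f.totalDegree ≤ g.totalDegree) :
    ∃ i, ∃ σ ∈ f.support, ((σ i : ℕ) : K) ≠ 0 := by
  classical
  obtain _ | ⟨p, hp, hpk⟩ := CharP.exists' K
  · -- characteristic zero
    have hdeg : f.totalDegree ≠ 0 := by
      intro h0
      have hC := MvPolynomial.totalDegree_eq_zero_iff_eq_C.1 h0
      rw [hC, MvPolynomial.aeval_C] at hfx
      have h1 : algebraMap K F (MvPolynomial.coeff 0 f) = 0 := by
        rw [IsScalarTower.algebraMap_apply K R F, hfx, map_zero]
      have h2 : MvPolynomial.coeff 0 f = 0 := (map_eq_zero _).1 h1
      rw [h2, map_zero] at hC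
      exact hf0 hC
    obtain ⟨σ, hσ, hσd⟩ := Finset.exists_mem_eq_sup _ (MvPolynomial.support_nonempty.2 hf0)
      (fun s : ι →₀ ℕ => s.sum fun _ e => e)
    have h5 : f.totalDegree = σ.sum fun _ e => e := hσd
    obtain ⟨i, hi⟩ : ∃ i, σ i ≠ 0 := by
      by_contra h
      simp only [not_exists, not_not] at h
      apply hdeg
      rw [h5]
      exact Finset.sum_eq_zero fun j _ => h j
    exact ⟨i, σ, hσ, Nat.cast_ne_zero.2 hi⟩
  · -- characteristic `p`
    have : ExpChar K p := .prime hp.out
    have : CharP F p := .of_ringHom_of_ne_zero (algebraMap K F) p hp.out.ne_zero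
    have H : ∀ s : Finset F, LinearIndepOn K _root_.id (s : Set F) →
        LinearIndepOn K (· ^ p) (s : Set F) := by
      intro s hs
      apply hs.map_of_injective_injective (frobeniusEquiv K p).symm
        (frobenius F p).toAddMonoidHom <;>
        simp [frobenius, Algebra.smul_def, mul_pow, ← map_pow, frobeniusEquiv_symm_pow]
    have hx' : ∀ g : MvPolynomial ι K,
        MvPolynomial.aeval (algebraMap R F ∘ x) g = 0 ↔ MvPolynomial.aeval x g = 0 := by
      intro g
      rw [MvPolynomial.aeval_algebraMap_apply, map_eq_zero_iff _ hinj]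
    obtain ⟨i, σ, hσ, hi⟩ :=
      MvPolynomial.exists_mem_support_not_dvd_of_forall_totalDegree_le p hp.out H
        (a := algebraMap R F ∘ x) (F := f) (fun g hg0 hg => hmin g hg0 ((hx' g).1 hg)) hf0
        ((hx' f).2 hfx)
    refine ⟨i, σ, hσ, ?_⟩
    rwa [Ne, CharP.cast_eq_zero_iff K p]

end Rel

/-! ### The induction -/

section Main

variable (K : Type*) [Field K]
variable {R : Type*} [CommRing R] [Algebra K R]
variable (F : Type*) [Field F] [Algebra K F] [Algebra R F] [IsScalarTower K R F]

/-- The statement proved by induction on the number `n` of elements `x₁, …, x_n ∈ R`: there are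
algebraically independent `y₁, …, y_s ∈ K[x]` such that every `x_j` is integral over `K[y]` and
separable over `K(y)`. -/
def SepNNAt (n : ℕ) (x : Fin n → R) : Prop :=
  ∃ (s : ℕ) (y : Fin s → R),
    (∀ j, y j ∈ Algebra.adjoin K (Set.range x)) ∧ AlgebraicIndependent K y ∧
    (∀ j, x j ∈ integralClosure (Algebra.adjoin K (Set.range y)) R) ∧
    (∀ j, algebraMap R F (x j) ∈
      separableClosure (IntermediateField.adjoin K (Set.range fun k => algebraMap R F (y k))) F)

variable {K F}

omit [IsScalarTower K R F] in
theorem sepNNAt_of_algebraicIndependent {n : ℕ} (x : Fin n → R) (hx : AlgebraicIndependent K x) :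
    SepNNAt K F n x := by
  refine ⟨n, x, fun j => Algebra.subset_adjoin ⟨j, rfl⟩, hx, fun j => ?_, fun j => ?_⟩
  · rw [mem_integralClosure_iff]
    exact isIntegral_algebraMap
      (x := (⟨x j, Algebra.subset_adjoin ⟨j, rfl⟩⟩ : Algebra.adjoin K (Set.range x)))
  · rw [mem_separableClosure_iff]
    exact isSeparable_algebraMap
      (⟨algebraMap R F (x j), IntermediateField.subset_adjoin K _ ⟨j, rfl⟩⟩ :
        IntermediateField.adjoin K (Set.range fun k => algebraMap R F (x k)))

variable [PerfectField K] [Infinite K]

theorem sepNNAt_step (hinj : Function.Injective (algebraMap R F)) (n : ℕ)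
    (ih : ∀ x : Fin n → R, SepNNAt K F n x) (x : Fin (n + 1) → R)
    (hx : ¬ AlgebraicIndependent K x) : SepNNAt K F (n + 1) x := by
  classical
  -- a relation of minimal total degree
  have hSne : {f : MvPolynomial (Fin (n + 1)) K | f ≠ 0 ∧ MvPolynomial.aeval x f = 0}.Nonempty := by
    rw [algebraicIndependent_iff] at hx
    simp only [not_forall] at hx
    obtain ⟨p, hp, hp0⟩ := hx
    exact ⟨p, hp0, hp⟩
  obtain ⟨f, hf0, hfx, hfmin⟩ : ∃ f : MvPolynomial (Fin (n + 1)) K, f ≠ 0 ∧
      MvPolynomial.aeval x f = 0 ∧ ∀ g : MvPolynomial (Fin (n + 1)) K, g ≠ 0 →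
        MvPolynomial.aeval x g = 0 → f.totalDegree ≤ g.totalDegree := by
    have hmem := Function.argminOn_mem MvPolynomial.totalDegree _ hSne
    refine ⟨Function.argminOn MvPolynomial.totalDegree _ hSne, hmem.1, hmem.2,
      fun g h1 h2 => ?_⟩
    exact Function.argminOn_le MvPolynomial.totalDegree
      {f : MvPolynomial (Fin (n + 1)) K | f ≠ 0 ∧ MvPolynomial.aeval x f = 0}
      (a := g) ⟨h1, h2⟩
  obtain ⟨i, σ, hσ, hσi⟩ := exists_support_cast_ne_zero (F := F) hinj x f hf0 hfx hfmin
  have hpd := pderiv_ne_zero_of_support f i σ hσ hσi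
  have hpdx : MvPolynomial.aeval x (MvPolynomial.pderiv i f) ≠ 0 := fun h0 =>
    absurd (hfmin _ hpd h0) (not_le.2 (totalDegree_pderiv_lt f i hpd))
  have hfd0 := homogeneousComponent_totalDegree_ne_zero f hf0
  -- a generic direction
  obtain ⟨c, hc1, hc2⟩ := exists_generic (F := F)
    (MvPolynomial.X i * MvPolynomial.homogeneousComponent f.totalDegree f)
    (mul_ne_zero (MvPolynomial.X_ne_zero i) hfd0)
    (fun j => algebraMap R F (MvPolynomial.aeval x (MvPolynomial.pderiv j f))) i
    ((map_ne_zero_iff _ hinj).2 hpdx)
  rw [map_mul, MvPolynomial.eval_X] at hc1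
  have hci : c i ≠ 0 := left_ne_zero_of_mul hc1
  have hcfd : MvPolynomial.eval c (MvPolynomial.homogeneousComponent f.totalDegree f) ≠ 0 :=
    right_ne_zero_of_mul hc1
  -- the new coordinates
  obtain ⟨t, ht⟩ : ∃ t : R, t = (c i)⁻¹ • x i := ⟨_, rfl⟩
  obtain ⟨u, hu⟩ : ∃ u : Fin (n + 1) → R, u = fun j => x j - c j • t := ⟨_, rfl⟩
  have hui : u i = 0 := by
    rw [hu, ht]
    show x i - c i • (c i)⁻¹ • x i = 0
    rw [smul_smul, mul_inv_cancel₀ hci, one_smul, sub_self]
  have hxu : ∀ j, x j = u j + algebraMap K R (c j) * t := by
    intro j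
    rw [hu, ← Algebra.smul_def]
    show x j = x j - c j • t + c j • t
    rw [sub_add_cancel]
  have hxm : ∀ j, x j ∈ Algebra.adjoin K (Set.range x) := fun j => Algebra.subset_adjoin ⟨j, rfl⟩
  have hum : ∀ j, u j ∈ Algebra.adjoin K (Set.range x) := by
    intro j
    rw [hu, ht]
    exact Subalgebra.sub_mem _ (hxm j)
      (Subalgebra.smul_mem _ (Subalgebra.smul_mem _ (hxm i) _) _)
  obtain ⟨s, y, hy1, hy2, hy3, hy4⟩ := ih fun k => u (i.succAbove k)
  refine ⟨s, y, fun j => ?_, hy2, ?_, ?_⟩
  · have hle : Algebra.adjoin K (Set.range fun k => u (i.succAbove k))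
        ≤ Algebra.adjoin K (Set.range x) := by
      refine Algebra.adjoin_le ?_
      rintro _ ⟨k, rfl⟩
      exact hum _
    exact hle (hy1 j)
  · -- integrality
    have huIC : ∀ j, u j ∈ integralClosure (Algebra.adjoin K (Set.range y)) R := by
      intro j
      by_cases hji : j = i
      · rw [hji, hui]
        exact zero_mem _
      · obtain ⟨k, hk⟩ := Fin.exists_succAbove_eq hji
        rw [← hk]
        exact hy3 k
    have hKIC : ∀ a : K, algebraMap K R a ∈ integralClosure (Algebra.adjoin K (Set.range y)) R := by
      intro a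
      have h1 := Subalgebra.algebraMap_mem (integralClosure (Algebra.adjoin K (Set.range y)) R)
        (algebraMap K (Algebra.adjoin K (Set.range y)) a)
      rwa [← IsScalarTower.algebraMap_apply K (Algebra.adjoin K (Set.range y)) R] at h1
    have htIC : t ∈ integralClosure (Algebra.adjoin K (Set.range y)) R := by
      have hg1 := natDegree_substLine_le
        (A := integralClosure (Algebra.adjoin K (Set.range y)) R) (fun j => ⟨u j, huIC j⟩) c f
      have hg2 := coeff_substLine
        (A := integralClosure (Algebra.adjoin K (Set.range y)) R) (fun j => ⟨u j, huIC j⟩) c f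
        f.totalDegree le_rfl
      have hg3 : Polynomial.aeval t (substLine
          (A := integralClosure (Algebra.adjoin K (Set.range y)) R)
          (fun j => ⟨u j, huIC j⟩) c f) = 0 := by
        rw [aeval_substLine]
        have h1 : (fun j => algebraMap (integralClosure (Algebra.adjoin K (Set.range y)) R) R
            ⟨u j, huIC j⟩ + algebraMap K R (c j) * t) = x := by
          funext j
          rw [hxu j]
          rfl
        rw [h1, hfx]
      have hint := isIntegral_of_unit_coeff _ f.totalDegree hg1
        (by rw [hg2]; exact (IsUnit.mk0 _ hcfd).map _) t hg3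
      exact (mem_integralClosure_iff _ _).2 (isIntegral_trans t hint)
    intro j
    rw [hxu j]
    exact add_mem (huIC j) (mul_mem (hKIC _) htIC)
  · -- separability
    have huSC : ∀ j, algebraMap R F (u j) ∈ separableClosure
        (IntermediateField.adjoin K (Set.range fun k => algebraMap R F (y k))) F := by
      intro j
      by_cases hji : j = i
      · rw [hji, hui, map_zero]
        exact zero_mem _
      · obtain ⟨k, hk⟩ := Fin.exists_succAbove_eq hji
        rw [← hk]
        exact hy4 k
    have hKSC : ∀ a : K, algebraMap K F a ∈ separableClosure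
        (IntermediateField.adjoin K (Set.range fun k => algebraMap R F (y k))) F := by
      intro a
      have h1 := (separableClosure
        (IntermediateField.adjoin K (Set.range fun k => algebraMap R F (y k))) F).algebraMap_mem
        (algebraMap K (IntermediateField.adjoin K (Set.range fun k => algebraMap R F (y k))) a)
      rwa [← IsScalarTower.algebraMap_apply K
        (IntermediateField.adjoin K (Set.range fun k => algebraMap R F (y k))) F] at h1
    have htSC : algebraMap R F t ∈ separableClosure
        (IntermediateField.adjoin K (Set.range fun k => algebraMap R F (y k))) F := by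
      have : IsScalarTower K ↥(separableClosure
          (IntermediateField.adjoin K (Set.range fun k => algebraMap R F (y k))) F) F :=
        IsScalarTower.of_algebraMap_eq' rfl
      have hxF : (fun j => algebraMap (separableClosure
            (IntermediateField.adjoin K (Set.range fun k => algebraMap R F (y k))) F) F
            ⟨algebraMap R F (u j), huSC j⟩ + algebraMap K F (c j) * algebraMap R F t)
          = algebraMap R F ∘ x := by
        funext j
        rw [Function.comp_apply, hxu j, map_add, map_mul,
          ← IsScalarTower.algebraMap_apply K R F]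
        rfl
      have hg3 : Polynomial.aeval (algebraMap R F t) (substLine
          (A := separableClosure
            (IntermediateField.adjoin K (Set.range fun k => algebraMap R F (y k))) F)
          (fun j => ⟨algebraMap R F (u j), huSC j⟩) c f) = 0 := by
        rw [aeval_substLine, hxF, MvPolynomial.aeval_algebraMap_apply, hfx, map_zero]
      have hg4 : Polynomial.aeval (algebraMap R F t) (derivative (substLine
          (A := separableClosure
            (IntermediateField.adjoin K (Set.range fun k => algebraMap R F (y k))) F)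
          (fun j => ⟨algebraMap R F (u j), huSC j⟩) c f)) ≠ 0 := by
        rw [derivative_substLine, map_sum]
        intro h0
        apply hc2
        rw [← h0]
        refine Finset.sum_congr rfl fun j _ => ?_
        rw [map_mul, aeval_C, aeval_substLine, hxF, MvPolynomial.aeval_algebraMap_apply,
          ← IsScalarTower.algebraMap_apply K _ F]
      have hsep := isSeparable_of_simple_root _ (algebraMap R F t) hg3 hg4
      exact mem_separableClosure_iff.2
        (IsSeparable.of_algebra_isSeparable_of_isSeparable
          (IntermediateField.adjoin K (Set.range fun k => algebraMap R F (y k))) hsep)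
    intro j
    rw [hxu j, map_add, map_mul, ← IsScalarTower.algebraMap_apply K R F]
    exact add_mem (huSC j) (mul_mem (hKSC _) htSC)

/-- **The core**: every finite family of elements of `R ⊆ F` has a separating Noether
normalisation. -/
theorem sepNNAt_all (hinj : Function.Injective (algebraMap R F)) :
    ∀ (n : ℕ) (x : Fin n → R), SepNNAt K F n x := by
  intro n
  induction n with
  | zero =>
    intro x
    have : Nontrivial R := (algebraMap R F).domain_nontrivial
    exact sepNNAt_of_algebraicIndependent x algebraicIndependent_empty_type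
  | succ n ih =>
    intro x
    by_cases hx : AlgebraicIndependent K x
    · exact sepNNAt_of_algebraicIndependent x hx
    · exact sepNNAt_step hinj n ih x hx

end Main

/-! ### The theorem -/

section Final

variable (K : Type*) [Field K] [PerfectField K] [Infinite K]
variable (R : Type*) [CommRing R] [Algebra K R] [Algebra.FiniteType K R]
variable (F : Type*) [Field F] [Algebra K F] [Algebra R F] [IsScalarTower K R F]

/-- **Separating Noether normalisation**, elementwise form: `R` a finitely generated algebra over
the perfect infinite field `K`, `R ⊆ F` a field.  There are algebraically independent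
`y₁, …, y_s ∈ R` such that every element of `R` is integral over `K[y]` and separable over
`K(y)`. -/
theorem exists_sepNN_mem (hinj : Function.Injective (algebraMap R F)) :
    ∃ (s : ℕ) (y : Fin s → R), AlgebraicIndependent K y ∧
      (∀ r : R, IsIntegral (Algebra.adjoin K (Set.range y)) r) ∧
      (∀ r : R, IsSeparable (IntermediateField.adjoin K (Set.range fun k => algebraMap R F (y k)))
        (algebraMap R F r)) := by
  classical
  obtain ⟨S, hS⟩ := (Algebra.FiniteType.out : (⊤ : Subalgebra K R).FG)
  obtain ⟨s, y, -, hy2, hy3, hy4⟩ :=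
    sepNNAt_all (K := K) (F := F) hinj S.card fun k => ((S.equivFin.symm k : S) : R)
  have hrange : Set.range (fun k => ((S.equivFin.symm k : S) : R)) = (S : Set R) := by
    ext r
    constructor
    · rintro ⟨k, rfl⟩
      exact (S.equivFin.symm k).2
    · intro hr
      exact ⟨S.equivFin ⟨r, hr⟩, by simp⟩
  refine ⟨s, y, hy2, fun r => ?_, fun r => ?_⟩
  · rw [← mem_integralClosure_iff]
    have h1 : Algebra.adjoin K (S : Set R)
        ≤ (integralClosure (Algebra.adjoin K (Set.range y)) R).restrictScalars K := by
      refine Algebra.adjoin_le ?_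
      intro r hr
      rw [← hrange] at hr
      obtain ⟨k, rfl⟩ := hr
      exact hy3 k
    have h2 : r ∈ Algebra.adjoin K (S : Set R) := by
      rw [hS]
      exact Algebra.mem_top
    exact h1 h2
  · rw [← mem_separableClosure_iff]
    have h1 : Algebra.adjoin K (S : Set R)
        ≤ ((separableClosure (IntermediateField.adjoin K
            (Set.range fun k => algebraMap R F (y k))) F).restrictScalars K).toSubalgebra.comap
          (IsScalarTower.toAlgHom K R F) := by
      refine Algebra.adjoin_le ?_
      intro r hr
      rw [← hrange] at hr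
      obtain ⟨k, rfl⟩ := hr
      exact hy4 k
    have h2 : r ∈ Algebra.adjoin K (S : Set R) := by
      rw [hS]
      exact Algebra.mem_top
    exact h1 h2

/-- **Separating Noether normalisation**: `R` a finitely generated domain over the perfect
infinite field `K`, `F` its field of fractions.  There are algebraically independent
`y₁, …, y_s ∈ R` such that `R` is a finite module over `K[y]` and `F` is separable over
`K(y)`. -/
theorem exists_sepNN [IsDomain R] [IsFractionRing R F] :
    ∃ (s : ℕ) (y : Fin s → R), AlgebraicIndependent K y ∧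
      (∀ r : R, IsIntegral (Algebra.adjoin K (Set.range y)) r) ∧
      Module.Finite (Algebra.adjoin K (Set.range y)) R ∧
      Algebra.IsSeparable
        (IntermediateField.adjoin K (Set.range fun k => algebraMap R F (y k))) F := by
  obtain ⟨s, y, hy1, hy2, hy3⟩ := exists_sepNN_mem K R F (IsFractionRing.injective R F)
  refine ⟨s, y, hy1, hy2, ?_, ?_⟩
  · have : Algebra.IsIntegral (Algebra.adjoin K (Set.range y)) R := ⟨hy2⟩
    have : Algebra.FiniteType (Algebra.adjoin K (Set.range y)) R :=
      Algebra.FiniteType.of_restrictScalars_finiteType K _ R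
    exact Algebra.IsIntegral.finite
  · rw [← separableClosure.eq_top_iff, eq_top_iff]
    intro z _
    obtain ⟨a, b, hb, rfl⟩ := IsFractionRing.div_surjective (A := R) z
    exact div_mem (mem_separableClosure_iff.2 (hy3 a)) (mem_separableClosure_iff.2 (hy3 b))

end Final

end Fermat.Agent.S26.G.H38
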