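import Mathlib
import Fermat.Agent.S26.G.Defs

/-!
# S26, package (G), leaf LREG (helper69)

`stmt_LREG_of : T.Stmt_HART → Stmt_LREG` : the elements of `L(m D_U)` are regular on the affine
open `U` (Hartogs).
-/

set_option autoImplicit false

open CategoryTheory CategoryTheory.Limits AlgebraicGeometry NeronModelInfra GoodReductionJacobian

universe u

namespace Fermat.Agent.S26.G.H69

/-- **LREG** from Hartogs. -/
theorem stmt_LREG_of (hH : T.Stmt_HART.{u}) : Stmt_LREG.{u} := by
  intro X _ _ hN U _ hU m h hh
  rcases hh with rfl | hh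
  · exact ⟨0, map_zero _⟩
  · exact hH hN U hU h (fun z hz hzU => (hh z hz).1 hzU)

end Fermat.Agent.S26.G.H69
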