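/-
S26 (row 25), package (G), upper half, leaf TPOLE (helper80):
a finite set `T` of nonzero functions such that for every point `z ∉ U` some `t ∈ T` has
`t ^ m * h ∈ 𝒪_{X,z}` for all `m` and all `h ∈ L(m D_U)`.

Route: finite cover of `X` by affine opens `V_a`; `t_a ∈ Γ(V_a)` nonzero with `D(t_a) ⊆ U`
(so `t_a` vanishes on `V_a ∖ U`); for `z ∈ V_a` and a point `z'` of codimension one specialising
to `z`: `ord (t_a ^ m h) z' ≥ 0` (if `z' ∈ U`: both factors regular; if `z' ∉ U`:
`ord t_a ≥ 1`, `ord h ≥ -m`); local Hartogs at `z`.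

* `mem_stalk_of_ord_nonneg` : local Hartogs (from `T.Stmt_HART` on affine opens + FINB);
* `one_le_ord_germ`         : a section vanishing at a point of codimension one has `ord ≥ 1`;
* `tpole_of`                : `T.Stmt_HART → Stmt_TPOLE`.
-/
import Fermat.Agent.S26.T.H69_FinB
import Fermat.Agent.S26.T.H61_OrdB
import Fermat.Agent.S26.G.Defs

set_option autoImplicit false

open CategoryTheory CategoryTheory.Limits AlgebraicGeometry

universe u

namespace Fermat.Agent.S26.G.H80T

open Fermat.Agent.S26.T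

variable {X : Scheme.{u}} [IsIntegral X] [IsLocallyNoetherian X]

/-- **Local Hartogs**: a function without poles at the points of codimension one which
specialise to `z` is in the local ring at `z`. -/
theorem mem_stalk_of_ord_nonneg [CompactSpace X] (hH : Stmt_HART.{u}) (hN : IsNor X) (z : X)
    (h : X.functionField)
    (hh : ∀ z' : X, Order.coheight z' = 1 → z' ⤳ z → 0 ≤ Scheme.ord h z') :
    h ∈ Set.range (algebraMap (X.presheaf.stalk z) X.functionField) := by
  classical
  by_cases h0 : h = 0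
  · exact ⟨0, by rw [h0, map_zero]⟩
  obtain ⟨W, hW, f', hWne, hf', hunit⟩ := exists_isUnit_germ_eq X h h0
  have hfin : {z' : X | Order.coheight z' = 1 ∧ z' ∉ W}.Finite :=
    H69.stmt_FINB W hWne
  -- the bad points
  set B : Set X := {z' : X | (Order.coheight z' = 1 ∧ z' ∉ W) ∧ ¬ z' ⤳ z} with hB
  have hBfin : B.Finite := hfin.subset (fun z' hz' => hz'.1)
  set C : Set X := ⋃ z' ∈ B, closure {z'} with hC
  have hCclosed : IsClosed C := hBfin.isClosed_biUnion (fun _ _ => isClosed_closure)
  have hzC : z ∉ C := by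
    intro hz
    rw [hC, Set.mem_iUnion₂] at hz
    obtain ⟨z', hz'B, hz'⟩ := hz
    exact hz'B.2 (specializes_iff_mem_closure.mpr hz')
  obtain ⟨_, ⟨V, hV, rfl⟩, hzV, hVC⟩ :=
    X.isBasis_affineOpens.exists_subset_of_mem_open (show z ∈ Cᶜ from hzC) hCclosed.isOpen_compl
  have : Nonempty V := ⟨⟨z, hzV⟩⟩
  have key : ∀ z'' : X, Order.coheight z'' = 1 → z'' ∈ V → 0 ≤ Scheme.ord h z'' := by
    intro z'' hco hz''V
    by_cases hz''W : z'' ∈ W
    · rw [← hf', Scheme.ord_of_isUnit hunit hz''W]
    · by_cases hsp : z'' ⤳ z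
      · exact hh z'' hco hsp
      · exfalso
        have : z'' ∈ C := by
          rw [hC, Set.mem_iUnion₂]
          exact ⟨z'', ⟨⟨hco, hz''W⟩, hsp⟩, subset_closure rfl⟩
        exact hVC hz''V this
  obtain ⟨s, hs⟩ := hH hN V hV h key
  refine ⟨X.presheaf.germ V z hzV s, ?_⟩
  rw [Scheme.algebraMap_germ_eq_germToFunctionField X hzV s]
  exact hs

/-- A regular function vanishing at a point `z'` of codimension one (with DVR local ring) has
order at least one there. -/
theorem one_le_ord_germ {V : X.Opens} [Nonempty V] (s : Γ(X, V)) (hs : s ≠ 0) (z' : X)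
    (hz'V : z' ∈ V) (hco : Order.coheight z' = 1)
    (hdvr : IsDiscreteValuationRing (X.presheaf.stalk z'))
    (hnb : z' ∉ X.basicOpen s) : 1 ≤ Scheme.ord (X.germToFunctionField V s) z' := by
  have hne : X.germToFunctionField V s ≠ 0 := by
    rw [Ne, ← (X.germToFunctionField V).hom.map_zero]
    exact fun h => hs (Scheme.germToFunctionField_injective X V h)
  have h0 : 0 ≤ Scheme.ord (X.germToFunctionField V s) z' := H61.stmt_REG V s z' hz'V
  have h1 : Scheme.ord (X.germToFunctionField V s) z' ≠ 0 := by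
    intro h
    rw [Scheme.ord_eq_iff hco hne] at h
    apply hnb
    rw [Scheme.mem_basicOpen X s z' hz'V]
    have := hdvr
    rw [Ring.isUnit_iff_ordFrac_one_of_isDiscreteValuationRing (K := X.functionField)]
    rw [Scheme.algebraMap_germ_eq_germToFunctionField X hz'V s]
    unfold Scheme.ordHom at h
    simpa using h
  omega

/-- the order of a power -/
theorem ord_pow (t : X.functionField) (ht : t ≠ 0) (m : ℕ) (z : X) :
    Scheme.ord (t ^ m) z = m * Scheme.ord t z := by
  induction m with
  | zero =>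
    simp only [pow_zero, Nat.cast_zero, zero_mul]
    exact H61.ord_one z
  | succ m ih =>
    rw [pow_succ, Scheme.ord_mul (pow_ne_zero m ht) ht, ih]
    push_cast
    ring

omit [IsLocallyNoetherian X] in
/-- every point has an affine open neighbourhood `V` with a nonzero section `t` whose
non-vanishing locus lies in `U` -/
theorem exists_affine_section (U : X.Opens) (hU : Nonempty U) (x : X) :
    ∃ (V : X.Opens), IsAffineOpen V ∧ x ∈ V ∧ ∃ t : Γ(X, V), t ≠ 0 ∧ X.basicOpen t ≤ U := by
  obtain ⟨_, ⟨V, hV, rfl⟩, hxV, -⟩ :=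
    X.isBasis_affineOpens.exists_subset_of_mem_open (Set.mem_univ x) isOpen_univ
  obtain ⟨u⟩ := hU
  have hne : ((U : Set X) ∩ (V : Set X)).Nonempty :=
    nonempty_preirreducible_inter U.isOpen V.isOpen ⟨u.1, u.2⟩ ⟨x, hxV⟩
  obtain ⟨y, hyU, hyV⟩ := hne
  obtain ⟨t, ht1, ht2⟩ := hV.exists_basicOpen_le (V := U) ⟨y, hyU⟩ hyV
  refine ⟨V, hV, hxV, t, ?_, ht1⟩
  rintro rfl
  rw [Scheme.basicOpen_zero] at ht2
  exact ht2

/-- **TPOLE** from Hartogs on affine opens. -/
theorem tpole_of (hH : Stmt_HART.{u}) : Stmt_TPOLE.{u} := by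
  intro X _ _ _ hN U hU
  classical
  choose V hV hxV t ht htU using fun x : X => exists_affine_section U hU x
  obtain ⟨I, hI⟩ := CompactSpace.elim_nhds_subcover (fun x => (V x : Set X))
    (fun x => (V x).isOpen.mem_nhds (hxV x))
  have hVne : ∀ x, Nonempty (V x) := fun x => ⟨⟨x, hxV x⟩⟩
  have htne : ∀ x, X.germToFunctionField (V x) (t x) ≠ 0 := by
    intro x
    rw [Ne, ← (X.germToFunctionField (V x)).hom.map_zero]
    exact fun h => ht x (Scheme.germToFunctionField_injective X (V x) h)
  refine ⟨I.image (fun x => X.germToFunctionField (V x) (t x)), ?_, ?_⟩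
  · intro s hs
    obtain ⟨x, -, rfl⟩ := Finset.mem_image.mp hs
    exact htne x
  · intro z _
    have hz : z ∈ ⋃ x ∈ I, (V x : Set X) := by rw [hI]; trivial
    obtain ⟨x, hxI, hzV⟩ := Set.mem_iUnion₂.mp hz
    refine ⟨_, Finset.mem_image_of_mem _ hxI, fun m h hh => ?_⟩
    by_cases h0 : h = 0
    · exact ⟨0, by rw [h0, mul_zero, map_zero]⟩
    have hLU := hh.resolve_left h0
    apply mem_stalk_of_ord_nonneg hH hN z
    intro z' hco hsp
    have hz'V : z' ∈ V x := hsp.mem_open (V x).isOpen hzV
    rw [Scheme.ord_mul (pow_ne_zero m (htne x)) h0, ord_pow _ (htne x)]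
    have hreg : 0 ≤ Scheme.ord (X.germToFunctionField (V x) (t x)) z' :=
      H61.stmt_REG (V x) (t x) z' hz'V
    by_cases hz'U : z' ∈ U
    · have h1 := (hLU z' hco).1 hz'U
      positivity
    · have h1 := one_le_ord_germ (t x) (ht x) z' hz'V hco ((hN z').2 hco)
        (fun hb => hz'U (htU x hb))
      have h2 := (hLU z' hco).2 hz'U
      nlinarith

end Fermat.Agent.S26.G.H80T
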