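import Mathlib
import Fermat.Agent.S26.G.Defs
import Fermat.Agent.S26.G.H21_GUpRing
import Fermat.Agent.S26.G.H38_SepNN
import Fermat.Agent.S26.G.H69_LReg
import Fermat.Agent.S26.G.H80_Centre
import Fermat.Agent.S26.G.H80_TPole
import Fermat.Agent.S26.G.H8_Dim
import Fermat.Agent.S26.H39_Nor

/-!
# S26, leaf G-UP (helper21), part 4: the assembly

`stmt_GUP_of : T.Stmt_HART → Stmt_GUP` : for a good open `U` of the abelian variety `A` of
dimension `g`, `L(m D_U)` is finite-dimensional and `ell U m ≤ C m ^ g`.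

Inputs: the ring-level bound `H21.finrank_le_of_sepNN`, the separating Noether normalisation
`H38.exists_sepNN`, `H8.stmt_DIM` (it has `g` variables), `H80T.tpole_of` (denominators along
`A ∖ U`), `H69.stmt_LREG_of` (`L(m D_U) ⊆ Γ(U)`), `H80.exists_centre_not_mem` (centres of
valuation rings), `H39.stmt_NOR` (normality).
-/

set_option autoImplicit false
set_option linter.style.haveILetI false

open CategoryTheory CategoryTheory.Limits AlgebraicGeometry NeronModelInfra GoodReductionJacobian

universe u

namespace Fermat.Agent.S26.G.H21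

variable {K : Type u} [Field K] {A : Scheme.{u}} (f : A ⟶ Spec (CommRingCat.of K))

/-- The ring of sections over an affine open is a `K`-algebra of finite type. -/
theorem finiteType_constSec [LocallyOfFiniteType f] (U : A.Opens) (hU : IsAffineOpen U) :
    (constSec f U).FiniteType := by
  have e : U ≤ f ⁻¹ᵁ (⊤ : (Spec (CommRingCat.of K)).Opens) := le_top
  have h1 : (f.appLE ⊤ U e).hom.FiniteType :=
    HasRingHomProperty.appLE (P := @LocallyOfFiniteType) f inferInstance
      ⟨⊤, isAffineOpen_top _⟩ ⟨U, hU⟩ e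
  have h2 : constSec f U = (f.appLE ⊤ U e).hom.comp (H8.baseSec K ⊤) := by
    ext k
    exact (H8.appLE_baseSec f ⊤ U e k).symm
  rw [h2]
  obtain ⟨x⟩ : Nonempty (Spec (CommRingCat.of K)) := inferInstance
  exact h1.comp (RingHom.FiniteType.of_surjective _ (H8.baseSec_bijective ⊤ x trivial).2)

/-- The core of G-UP, without the count of the variables: a Noether normalisation in `s`
variables and the bound `C m ^ s`. -/
theorem gup_core (hH : T.Stmt_HART.{u}) (K : Type u) [Field K] [IsAlgClosed K] {A : Scheme.{u}}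
    (f : A ⟶ Spec (CommRingCat.of K)) (L : RelativeGroupLaw K f)
    (hA : AbelianSchemePropertyBundle K f) [IsIntegral A] [IsLocallyNoetherian A]
    (U : A.Opens) (hU : IsGoodOpen L U) :
    letI : Algebra K A.functionField := (constHom f).toAlgebra
    letI : Algebra K Γ(A, U) := (constSec f U).toAlgebra
    ∃ s : ℕ, (∃ φ : MvPolynomial (Fin s) K →ₐ[K] Γ(A, U), Function.Injective φ ∧
        φ.toRingHom.IsIntegral) ∧
      ∃ C : ℕ, ∀ m : ℕ, 1 ≤ m →
        Module.Finite K (Submodule.span K (LU U (m : ℤ))) ∧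
          Module.finrank K (Submodule.span K (LU U (m : ℤ))) ≤ C * m ^ s := by
  letI : Algebra K A.functionField := (constHom f).toAlgebra
  have hprop : IsProper f := hA.proper
  have hsm : Smooth f := hA.smooth
  obtain ⟨x₀⟩ : Nonempty (Spec (CommRingCat.of K)) := inferInstance
  have hne : Nonempty U := ⟨⟨(zeroHom L).base x₀, hU.zero_mem x₀⟩⟩
  have hcompact : CompactSpace A := QuasiCompact.compactSpace_of_compactSpace f
  have hN : T.IsNor A := fun z => H39.stmt_NOR K f L hA z
  obtain ⟨T, hT0, hTpole⟩ := H80T.tpole_of hH hN U hne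
  have hreg := H69.stmt_LREG_of hH hN U hU.affine
  -- the algebra structures
  letI : Algebra K Γ(A, U) := (constSec f U).toAlgebra
  have : IsScalarTower K Γ(A, U) A.functionField :=
    IsScalarTower.of_algebraMap_eq fun c => (H8.germ_constSec f U c).symm
  have : Algebra.FiniteType K Γ(A, U) := finiteType_constSec f U hU.affine
  have : IsFractionRing Γ(A, U) A.functionField :=
    functionField_isFractionRing_of_isAffineOpen (X := A) U hU.affine
  obtain ⟨s, y, hy, hint, hfin, hsep⟩ := H38.exists_sepNN K Γ(A, U) A.functionField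
  -- the Noether normalisation as a homomorphism
  have hintφ : (MvPolynomial.aeval y :
      MvPolynomial (Fin s) K →ₐ[K] Γ(A, U)).toRingHom.IsIntegral := by
    intro r
    have hcomp : ((MvPolynomial.aeval y : MvPolynomial (Fin s) K →ₐ[K] Γ(A, U)).toRingHom).comp
        (hy.aevalEquiv.symm : Algebra.adjoin K (Set.range y) →+* MvPolynomial (Fin s) K) =
        (RingHom.id Γ(A, U)).comp (algebraMap (Algebra.adjoin K (Set.range y)) Γ(A, U)) := by
      ext t
      simp only [RingHom.coe_comp, Function.comp_apply, RingHom.id_apply]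
      exact hy.aeval_repr t
    letI : Algebra (MvPolynomial (Fin s) K) Γ(A, U) :=
      (MvPolynomial.aeval y : MvPolynomial (Fin s) K →ₐ[K] Γ(A, U)).toRingHom.toAlgebra
    exact IsIntegral.map_of_comp_eq
      (hy.aevalEquiv.symm : Algebra.adjoin K (Set.range y) →+* MvPolynomial (Fin s) K)
      (RingHom.id Γ(A, U)) hcomp (hint r)
  refine ⟨s, ⟨MvPolynomial.aeval y, algebraicIndependent_iff_injective_aeval.1 hy, hintφ⟩, ?_⟩
  -- the ring-level bound
  have hM : ∀ m : ℕ, ∀ h ∈ Submodule.span K (LU U (m : ℤ)),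
      h ∈ Set.range (algebraMap Γ(A, U) A.functionField) := by
    intro m h hh
    have hle : Submodule.span K (LU U (m : ℤ)) ≤
        LinearMap.range (IsScalarTower.toAlgHom K Γ(A, U) A.functionField).toLinearMap := by
      rw [Submodule.span_le]
      intro h' hh'
      obtain ⟨r, hr⟩ := hreg (m : ℤ) h' hh'
      exact ⟨r, hr⟩
    obtain ⟨r, hr⟩ := hle hh
    exact ⟨r, hr⟩
  have hW : ∀ W : ValuationSubring A.functionField,
      (∀ c : K, algebraMap K A.functionField c ∈ W) →
      (∃ r : Γ(A, U), algebraMap Γ(A, U) A.functionField r ∉ W) →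
      ∃ t ∈ T, ∀ m : ℕ, ∀ h ∈ Submodule.span K (LU U (m : ℤ)), t ^ m * h ∈ W := by
    intro W hKW ⟨r, hr⟩
    obtain ⟨z, hzU, hz1, -⟩ := H80.exists_centre_not_mem f W hKW U r hr
    obtain ⟨t, ht, htz⟩ := hTpole z hzU
    refine ⟨t, ht, fun m h hh => ?_⟩
    -- the set of `h` with `t ^ m * h ∈ W` is a `K`-subspace
    let S : Submodule K A.functionField :=
      { carrier := {h | t ^ m * h ∈ W}
        add_mem' := fun {a b} ha hb => by
          show t ^ m * (a + b) ∈ W
          rw [mul_add]
          exact W.add_mem _ _ ha hb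
        zero_mem' := by
          show t ^ m * 0 ∈ W
          rw [mul_zero]
          exact W.zero_mem
        smul_mem' := fun c a ha => by
          show t ^ m * (c • a) ∈ W
          rw [Algebra.smul_def, mul_left_comm]
          exact W.mul_mem _ _ (hKW c) ha }
    have hle : Submodule.span K (LU U (m : ℤ)) ≤ S := by
      rw [Submodule.span_le]
      intro h' hh'
      obtain ⟨σ, hσ⟩ := htz m h' hh'
      show t ^ m * h' ∈ W
      rw [← hσ]
      exact hz1 σ
    exact hle hh
  exact finrank_le_of_sepNN y hy hint hfin hsep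
    (fun m : ℕ => Submodule.span K (LU U (m : ℤ))) hM T hT0 hW

/-- **G-UP**: the upper bound and the finiteness, from Hartogs. -/
theorem stmt_GUP_of (hH : T.Stmt_HART.{u}) : Stmt_GUP.{u} := by
  intro K _ _ A f L hc hA g _ _ _ U hU
  obtain ⟨x₀⟩ : Nonempty (Spec (CommRingCat.of K)) := inferInstance
  have hne : Nonempty U := ⟨⟨(zeroHom L).base x₀, hU.zero_mem x₀⟩⟩
  obtain ⟨s, ⟨φ, hφ1, hφ2⟩, C, hC⟩ := gup_core hH K f L hA U hU
  have hsg : s = g := H8.stmt_DIM K f g U hne hU.affine s φ hφ1 hφ2
  subst hsg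
  exact ⟨C, fun m hm => hC m hm⟩

/-- `L(m D_U)` is monotone in `m`. -/
theorem LU_mono {X : Scheme.{u}} [IsIntegral X] [IsLocallyNoetherian X] (U : X.Opens)
    {m m' : ℤ} (h : m ≤ m') : LU U m ⊆ LU U m' := by
  rintro x (rfl | hx)
  · exact Or.inl rfl
  · exact Or.inr fun z hz => ⟨(hx z hz).1, fun hzU => by have := (hx z hz).2 hzU; omega⟩

/-- **FIN** (the input of package (T)): `L(m D_U)` is finite-dimensional for every `m : ℤ`. -/
theorem stmt_FIN_of (hH : T.Stmt_HART.{u}) : T.Stmt_FIN.{u} := by
  intro K _ _ A f L hc hA _ _ U hU m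
  letI : Algebra K A.functionField := (constHom f).toAlgebra
  obtain ⟨s, -, C, hC⟩ := gup_core hH K f L hA U hU
  have hfin : Module.Finite K (Submodule.span K (LU U ((m.toNat + 1 : ℕ) : ℤ))) :=
    (hC (m.toNat + 1) (Nat.le_add_left 1 _)).1
  have hle : Submodule.span K (LU U m) ≤ Submodule.span K (LU U ((m.toNat + 1 : ℕ) : ℤ)) :=
    Submodule.span_mono (LU_mono U (by have := Int.self_le_toNat m; push_cast; omega))
  exact Module.Finite.of_injective (Submodule.inclusion hle) (Submodule.inclusion_injective hle)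

end Fermat.Agent.S26.G.H21
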