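import Mathlib
import Fermat.Agent.S26.G.H21_GUp
import Fermat.Agent.S26.T.H85_Hart
import Fermat.Agent.S26.T.H52_Final
import Fermat.Agent.S26.H36_GLow

/-!
# S26, packages (G) and (T) closed (helper21)

* `stmt_GUP : Stmt_GUP` : `L(m D_U)` is finite-dimensional and `ell U m ≤ C m ^ g`;
* `stmt_FIN : T.Stmt_FIN` : `L(m D_U)` is finite-dimensional for all `m : ℤ`;
* `stmt_G : Stmt_G` : `c₁ m ^ g ≤ ell U m ≤ c₂ m ^ g` (with `H36.stmt_G_of`);
* `stmt_T : Stmt_T` : the trace bounds (with `T.H52.stmt_T_of_FIN`).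
-/

set_option autoImplicit false

universe u

namespace Fermat.Agent.S26.G.H21

theorem stmt_GUP : Stmt_GUP.{u} := stmt_GUP_of T.H85.stmt_HART

theorem stmt_FIN : T.Stmt_FIN.{u} := stmt_FIN_of T.H85.stmt_HART

theorem stmt_G : Stmt_G.{u} := H36.stmt_G_of stmt_GUP

theorem stmt_T : Stmt_T.{u} := T.H52.stmt_T_of_FIN stmt_FIN

end Fermat.Agent.S26.G.H21
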