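/-
S26 (row 25), package (G), upper half, leaf TPOLE (helper80): the unconditional form.
`stmt_TPOLE : Stmt_TPOLE` from `H80T.tpole_of` and `T.H85.stmt_HART`.
-/
import Fermat.Agent.S26.G.H80_TPole
import Fermat.Agent.S26.T.H85_Hart

set_option autoImplicit false

universe u

namespace Fermat.Agent.S26.G.H80T

/-- **TPOLE**, unconditional. -/
theorem stmt_TPOLE : Stmt_TPOLE.{u} :=
  tpole_of Fermat.Agent.S26.T.H85.stmt_HART

end Fermat.Agent.S26.G.H80T
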